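import Fermat.Agent.A2.Alg.Spec

/-!
# RIBET row 38 / S33, WALL-p, piece **W-ALGP** (= I5, second half of (S2)): frozen interface
(sub-architect helper495)

`(S2)`: a NEW class `x ∈ J₀(pM')[p]` in the split part has `σ x = χ(σ) x` for `σ` in inertia at `p`.
W-NC (norm contraction, owners helper232 / helper400 / helper279) turns "new + constant reductions"
into "the Kummer function is a `p`-th power in the completions at `V₁`, `V₂`".  THIS piece is the
rest: the `m = p` analogue of A2's ALG (route S), Mathlib + `A2/Spec` + `A2/Alg/Spec` only.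

## Setting (= `A2.AlgSSStatement`, with `q = m = p`)
`R` henselian DVR, uniformiser `w`, residue field algebraically closed of characteristic `p`,
`E = Frac R`, `F / E` function field with coordinate `x`, charts `Bf`, `Bi` (integral closures of
`R[x]`, `R[x⁻¹]`), semistable (`SSChart`: components `p₁`, `p₂`, `V_i = B_{p_i}`),
`τ` semilinear, `τ ≡ id mod w` on both charts.  NEW: `ζ ∈ R` a primitive `p`-th root of unity,
`λ := ζ - 1` (`λ ^ (p-1) = p · unit`, `λ ∈ (w)`), and `τ ζ = ζ ^ c`.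

## Statement `AlgPStatement`
`u ≠ 0`, `p ∣ div u` (`DivisibleDiv`), `u ∈ 1 + λ^p w V_i` for `i = 1, 2` (`DeepOne`, on both charts)
`⟹ ∃ h ≠ 0, τ u = h ^ p * u ^ c`.
(`DeepOne` is the NORMALISED output of W-NC: a class `f ∈ c_i · F̂_{V_i}^p` becomes, after adjoining
`p`-th roots of the constants to the level and multiplying by a `p`-th power (weak approximation
for `V₁, V₂`), a `u ∈ 1 + λ^p w (V₁ ∩ V₂)`; depth `λ^p w` is the Hensel bound `p e/(p-1) + 1`.)

## Route S-p (all checked on paper; see `origin/helper495:coord/RIBET-ALGP-helper495.md`)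
* **WPS / WPN** (wild purity at a smooth point / at a node of the special fibre) `⟹ PureAtP`:
  `∃ d, u · d^p ∈ 1 + λ^p B_n` and `d ∈ μ_p · (1 + λ V_i)` on both components.
  (Then `Z := ((u d^p)^{1/p} - 1)/λ` satisfies an Artin–Schreier equation `Z^p - Z ≡ t mod w`,
  étale over `B_n`.)  Proof: A2 purity (`H754`/`H609`, valid for every exponent) gives a unit
  `ε = u d₀^p ∈ B_nˣ`; successive approximation of the `p`-th root of `ε` below the Hensel bound
  (`B_n/p_i` normal, `p`-th roots unique in characteristic `p`, glue the two branches at a node);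
  at a smooth point adjust `d` on the other component by an element of `1 + λ B_n`.
  The node case in node-ring form is `H704.I6.WildPurityStatement`.
* **LF-p** (PROVED in `AlgPAsm.lean`): `PureAtP u n ⟹ LocalFactorP (τ u / u ^ c) n`, with
  `h := τ d / d ^ c`:  `τ (1 + λ^p t) ≡ 1 + c λ^p t ≡ (1 + λ^p t)^c mod λ^p w B_n`, and
  `h ∈ 1 + λ w V_i` because `τ (ζ^j) = (ζ^j)^c`: the sheet labels `j` cancel.
* **GLUE-p**: `v` with local factorisations `v h^p ∈ 1 + λ^p w B_n`, `h ∈ 1 + λ w V_i (i = 1, 2)`,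
  at every closed point of the special fibre of both charts `⟹ v = y ^ p`.
  (A2 `H348` pattern with the Artin–Schreier coordinate `Z = (Y h - 1)/λ`: the sheet `Z ≡ 0 mod w`
  is a global idempotent of the normalisation; `R` henselian.)
* **Assembly** (PROVED in `AlgPAsm.lean`): `algP_of_leaves`.
-/

set_option autoImplicit false

namespace Fermat.Agent.Ribet.H495.AlgP

open Fermat.Agent.A2 Fermat.Agent.A2.Alg

section Defs

variable {R F : Type*} [CommRing R] [Field F] [Algebra R F]

/-- `u ∈ 1 + r · B_n` for a scalar `r ∈ R` (`A2.Alg.LocOne` for the principal ideal `(r)`). -/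
def LocOneR (B : Subalgebra R F) (n : Ideal B) (r : R) (u : F) : Prop :=
  LocOne B n (Ideal.span {algebraMap R B r}) u

/-- `u ∈ 1 + λ^p w V₁` and `u ∈ 1 + λ^p w V₂` (`V_i = B_{p_i}`): the normalised form of
"`u` is a `p`-th power in both completions". -/
def DeepOne {w : R} (B : Subalgebra R F) (c : SSChart w B) (p : ℕ) (lam : R) (u : F) : Prop :=
  LocOneR B c.p₁ (lam ^ p * w) u ∧ LocOneR B c.p₂ (lam ^ p * w) u

/-- **Wild purity datum at a closed point `n`**: `u · d ^ p ∈ 1 + λ^p B_n`, and on each component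
`d` is a `p`-th root of unity times an element of `1 + λ V_i`. -/
def PureAtP {w : R} (B : Subalgebra R F) (c : SSChart w B) (p : ℕ) (ζ : R) (u : F)
    (n : Ideal B) : Prop :=
  ∃ d : F, d ≠ 0 ∧ LocOneR B n ((ζ - 1) ^ p) (u * d ^ p) ∧
    (∃ j : ℕ, LocOneR B c.p₁ (ζ - 1) (algebraMap R F (ζ ^ j) * d)) ∧
    (∃ j : ℕ, LocOneR B c.p₂ (ζ - 1) (algebraMap R F (ζ ^ j) * d))

/-- **Local factorisation at a closed point `n`** for the Kummer problem `Y ^ p = v`:
`v · h ^ p ∈ 1 + λ^p w B_n` and `h ∈ 1 + λ w V_i` on both components. -/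
def LocalFactorP {w : R} (B : Subalgebra R F) (c : SSChart w B) (p : ℕ) (lam : R) (v : F)
    (n : Ideal B) : Prop :=
  ∃ h : F, h ≠ 0 ∧ LocOneR B n (lam ^ p * w) (v * h ^ p) ∧
    LocOneR B c.p₁ (lam * w) h ∧ LocOneR B c.p₂ (lam * w) h

/-- Local factorisations at all closed points of the special fibre of the chart. -/
def LocallyFactoredP {w : R} (B : Subalgebra R F) (c : SSChart w B) (p : ℕ) (lam : R)
    (v : F) : Prop :=
  ∀ n : Ideal B, n.IsMaximal → algebraMap R B w ∈ n → LocalFactorP B c p lam v n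

end Defs

/-! ## The leaves -/

/-- **Leaf WPS** (wild purity at a closed point lying on ONE component). -/
def WPSmoothLeaf : Prop :=
  ∀ {R E F : Type} [CommRing R] [IsDomain R] [IsDiscreteValuationRing R]
    [HenselianLocalRing R] [IsAlgClosed (IsLocalRing.ResidueField R)]
    [Field E] [CharZero E] [Algebra R E] [IsFractionRing R E]
    [Field F] [Algebra E F] [Algebra R F] [IsScalarTower R E F]
    (p : ℕ) (_ : p.Prime) (_ : p ≠ 2) (_ : (p : R) ∈ IsLocalRing.maximalIdeal R)
    (ζ : R) (_ : IsPrimitiveRoot ζ p)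
    (w : R) (x : F) (B : Subalgebra R F) (_ : ChartCtx E w x B)
    (c : SSChart w B) (_ : Incomparable c)
    (u : F) (_ : u ≠ 0) (_ : DivisibleDiv E p u) (_ : DeepOne B c p (ζ - 1) u)
    (n : Ideal B) (_ : n.IsMaximal) (_ : algebraMap R B w ∈ n)
    (_ : ¬ (c.p₁ ≤ n ∧ c.p₂ ≤ n)), PureAtP B c p ζ u n

/-- **Leaf WPN** (wild purity at a crossing point). -/
def WPNodeLeaf : Prop :=
  ∀ {R E F : Type} [CommRing R] [IsDomain R] [IsDiscreteValuationRing R]
    [HenselianLocalRing R] [IsAlgClosed (IsLocalRing.ResidueField R)]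
    [Field E] [CharZero E] [Algebra R E] [IsFractionRing R E]
    [Field F] [Algebra E F] [Algebra R F] [IsScalarTower R E F]
    (p : ℕ) (_ : p.Prime) (_ : p ≠ 2) (_ : (p : R) ∈ IsLocalRing.maximalIdeal R)
    (ζ : R) (_ : IsPrimitiveRoot ζ p)
    (w : R) (x : F) (B : Subalgebra R F) (_ : ChartCtx E w x B)
    (c : SSChart w B) (_ : Incomparable c)
    (u : F) (_ : u ≠ 0) (_ : DivisibleDiv E p u) (_ : DeepOne B c p (ζ - 1) u)
    (n : Ideal B) (_ : n.IsMaximal) (_ : algebraMap R B w ∈ n)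
    (_ : c.p₁ ≤ n) (_ : c.p₂ ≤ n), PureAtP B c p ζ u n

/-- **Leaf GLUE-p** (a Kummer class of order `p` which is locally factored, at depth `λ^p w`, at
every closed point of the special fibre of both charts is trivial). -/
def GluePLeaf : Prop :=
  ∀ {R E F : Type} [CommRing R] [IsDomain R] [IsDiscreteValuationRing R]
    [HenselianLocalRing R] [IsAlgClosed (IsLocalRing.ResidueField R)]
    [Field E] [CharZero E] [Algebra R E] [IsFractionRing R E]
    [Field F] [Algebra E F] [Algebra R F] [IsScalarTower R E F]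
    (p : ℕ) (_ : p.Prime) (_ : p ≠ 2) (_ : (p : R) ∈ IsLocalRing.maximalIdeal R)
    (ζ : R) (_ : IsPrimitiveRoot ζ p)
    (w : R) (x : F) (Bf Bi : Subalgebra R F)
    (_ : ChartCtx E w x Bf) (_ : ChartCtx E w x⁻¹ Bi)
    (cf : SSChart w Bf) (ci : SSChart w Bi) (_ : Incomparable cf) (_ : Incomparable ci)
    (v : F) (_ : v ≠ 0) (_ : DivisibleDiv E p v)
    (_ : LocallyFactoredP Bf cf p (ζ - 1) v) (_ : LocallyFactoredP Bi ci p (ζ - 1) v),
    ∃ y : F, y ≠ 0 ∧ v = y ^ p

/-! ## The interface statement -/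

/-- The conclusion of ALG-p: `τ` acts on the deeply split Kummer classes of order `p` through the
cyclotomic exponent `c`. -/
def AlgPConclusion {R F : Type*} [CommRing R] [Field F] [Algebra R F] (E : Type*) [Field E]
    [Algebra E F] {w : R} (Bf Bi : Subalgebra R F) (cf : SSChart w Bf) (ci : SSChart w Bi)
    (p : ℕ) (lam : R) (c : ℕ) (τ : F ≃+* F) : Prop :=
  ∀ u : F, u ≠ 0 → DivisibleDiv E p u → DeepOne Bf cf p lam u → DeepOne Bi ci p lam u →
    ∃ h : F, h ≠ 0 ∧ τ u = h ^ p * u ^ c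

/-- **ALG-p (interface statement).**  Setting of `A2.AlgSSStatement` with `q = m = p` (no
separating coordinate, no finite order needed), `ζ ∈ R` a primitive `p`-th root of unity with
`τ ζ = ζ ^ c`. -/
def AlgPStatement : Prop :=
  ∀ {R E F : Type} [CommRing R] [IsDomain R] [IsDiscreteValuationRing R] [HenselianLocalRing R]
    [IsAlgClosed (IsLocalRing.ResidueField R)]
    [Field E] [CharZero E] [Algebra R E] [IsFractionRing R E]
    [Field F] [Algebra E F] [Algebra R F] [IsScalarTower R E F]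
    (w : R) (_ : Irreducible w) (p : ℕ) (_ : p.Prime) (_ : p ≠ 2)
    (_ : (p : R) ∈ IsLocalRing.maximalIdeal R)
    (ζ : R) (_ : IsPrimitiveRoot ζ p)
    (x : F) (_ : Transcendental E x)
    (_ : FiniteDimensional (IntermediateField.adjoin E ({x} : Set F)) F)
    (_ : ∀ f : F, IsAlgebraic E f → f ∈ (algebraMap E F).range)
    (Bf Bi : Subalgebra R F)
    (_ : ∀ f : F, f ∈ Bf ↔ IsIntegral (Algebra.adjoin R ({x} : Set F)) f)
    (_ : ∀ f : F, f ∈ Bi ↔ IsIntegral (Algebra.adjoin R ({x⁻¹} : Set F)) f)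
    (cf : SSChart w Bf) (ci : SSChart w Bi)
    (τ : F ≃+* F) (τE : E ≃+* E) (τR : R ≃+* R)
    (_ : ∀ e : E, τ (algebraMap E F e) = algebraMap E F (τE e))
    (_ : ∀ r : R, τE (algebraMap R E r) = algebraMap R E (τR r))
    (_ : ∀ b ∈ Bf, ∃ c ∈ Bf, τ b - b = algebraMap R F w * c)
    (_ : ∀ b ∈ Bi, ∃ c ∈ Bi, τ b - b = algebraMap R F w * c)
    (c : ℕ) (_ : τR ζ = ζ ^ c),
    AlgPConclusion E Bf Bi cf ci p (ζ - 1) c τ

end Fermat.Agent.Ribet.H495.AlgP
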