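import Fermat.Agent.Ribet.H495.AlgPTau
import Fermat.Agent.A2.Alg.H34.Basic

/-!
# W-ALGP: LF-p and the assembly `algP_of_leaves` (helper495)

* `localFactorP_of_pureAtP` (**LF-p**): `PureAtP u n ⟹ LocalFactorP (τ u / u ^ c) n`.
* `algP_of_leaves` : `WPSmoothLeaf → WPNodeLeaf → GluePLeaf → AlgPStatement`.
-/

set_option autoImplicit false
set_option linter.style.haveILetI false
set_option linter.unusedSectionVars false

namespace Fermat.Agent.Ribet.H495.AlgP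

open Fermat.Agent.A2 Fermat.Agent.A2.Alg

section LF

variable {R F : Type*} [CommRing R] [Field F] [Algebra R F]

theorem w_mem_comp₁ {w : R} {B : Subalgebra R F} (c : SSChart w B) :
    algebraMap R B w ∈ c.p₁ := by
  have : algebraMap R B w ∈ c.p₁ ⊓ c.p₂ := by
    rw [c.inf_eq]
    exact Ideal.mem_span_singleton_self _
  exact this.1

theorem w_mem_comp₂ {w : R} {B : Subalgebra R F} (c : SSChart w B) :
    algebraMap R B w ∈ c.p₂ := by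
  have : algebraMap R B w ∈ c.p₁ ⊓ c.p₂ := by
    rw [c.inf_eq]
    exact Ideal.mem_span_singleton_self _
  exact this.2

/-- the component part of LF-p: `ζ^j d ∈ 1 + λ B_𝔭 ⟹ τ d / d^c ∈ 1 + λ w B_𝔭`. -/
theorem comp_of_pure {w : R} {B : Subalgebra R F} {τ : F ≃+* F}
    (hτB : ∀ b ∈ B, ∃ c ∈ B, τ b - b = algebraMap R F w * c)
    (𝔭 : Ideal B) (h𝔭 : 𝔭.IsPrime) (hw𝔭 : algebraMap R B w ∈ 𝔭)
    (p : ℕ) (ζ ρ k₀ κ₁ : R) (cc : ℕ) (hζp : ζ ^ p = 1) (hp : 0 < p)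
    (hlam : ζ - 1 = w * ρ)
    (hτζ : τ (algebraMap R F ζ) = algebraMap R F (ζ ^ cc))
    (hgeom : ζ ^ cc - 1 = (ζ - 1) * k₀)
    (hk1 : k₀ = (cc : R) + w * κ₁)
    {d : F} (hd : d ≠ 0) {j : ℕ} (h : LocOneR B 𝔭 (ζ - 1) (algebraMap R F (ζ ^ j) * d)) :
    LocOneR B 𝔭 ((ζ - 1) * w) (τ d * (d ^ cc)⁻¹) := by
  have hS := tauLoc_locSub w B τ hτB 𝔭 h𝔭 hw𝔭
  obtain ⟨z, hz, e⟩ := (locOneR_iff h𝔭).1 h
  have hτlam : τ (algebraMap R F (ζ - 1)) = algebraMap R F (ζ - 1) * algebraMap R F k₀ := by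
    rw [map_sub, map_sub, map_one, map_one, hτζ, ← map_one (algebraMap R F), ← map_sub,
      ← map_sub, ← map_mul, hgeom]
  obtain ⟨hne, s, hs, hτ⟩ := tau_one_add hS (ζ - 1) ρ k₀ κ₁ cc 1 one_pos hlam hτlam
    (by rw [pow_one]; exact hk1) hz
  rw [pow_one] at hτ hne
  have hZ : algebraMap R F ζ ^ p = 1 := by rw [← map_pow, hζp, map_one]
  have hZ0 : algebraMap R F ζ ≠ 0 := by
    intro h0
    rw [h0, zero_pow hp.ne'] at hZ
    exact zero_ne_one hZ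
  have hZj : algebraMap R F (ζ ^ j) ≠ 0 := by
    rw [map_pow]
    exact pow_ne_zero _ hZ0
  have hτZj : τ (algebraMap R F (ζ ^ j)) = algebraMap R F (ζ ^ j) ^ cc := by
    rw [map_pow, map_pow, hτζ, map_pow, ← pow_mul, ← pow_mul, mul_comm]
  -- `τ (ζ^j d) = (ζ^j d)^c (1 + λ w s)`
  rw [← e, map_mul, hτZj, mul_pow] at hτ
  have hτd : τ d = d ^ cc * (1 + algebraMap R F (ζ - 1) * algebraMap R F w * s) := by
    have h3 := mul_left_cancel₀ (pow_ne_zero cc hZj)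
      (show algebraMap R F (ζ ^ j) ^ cc * τ d = algebraMap R F (ζ ^ j) ^ cc *
        (d ^ cc * (1 + algebraMap R F (ζ - 1) * algebraMap R F w * s)) by
        rw [hτ]; ring)
    exact h3
  refine (locOneR_iff h𝔭).2 ⟨s, hs, ?_⟩
  rw [hτd, map_mul]
  field_simp

/-- **LF-p.** -/
theorem localFactorP_of_pureAtP {w : R} {B : Subalgebra R F} (c : SSChart w B) {τ : F ≃+* F}
    (hτB : ∀ b ∈ B, ∃ c ∈ B, τ b - b = algebraMap R F w * c)
    (n : Ideal B) (hn : n.IsPrime) (hwn : algebraMap R B w ∈ n)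
    (p : ℕ) (ζ ρ k₀ κ₁ κ₂ : R) (cc : ℕ) (hζp : ζ ^ p = 1) (hp : 0 < p)
    (hlam : ζ - 1 = w * ρ)
    (hτζ : τ (algebraMap R F ζ) = algebraMap R F (ζ ^ cc))
    (hgeom : ζ ^ cc - 1 = (ζ - 1) * k₀)
    (hk1 : k₀ = (cc : R) + w * κ₁) (hkp : k₀ ^ p = (cc : R) + w * κ₂)
    {u : F} (hu : u ≠ 0) (h : PureAtP B c p ζ u n) :
    LocalFactorP B c p (ζ - 1) (τ u * (u ^ cc)⁻¹) n := by
  obtain ⟨d, hd, hloc, ⟨j₁, h₁⟩, ⟨j₂, h₂⟩⟩ := h
  have hτd : τ d ≠ 0 := (map_ne_zero τ).2 hd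
  refine ⟨τ d * (d ^ cc)⁻¹, mul_ne_zero hτd (inv_ne_zero (pow_ne_zero _ hd)), ?_,
    comp_of_pure hτB c.p₁ c.prime₁ (w_mem_comp₁ c) p ζ ρ k₀ κ₁ cc hζp hp hlam hτζ hgeom hk1 hd h₁,
    comp_of_pure hτB c.p₂ c.prime₂ (w_mem_comp₂ c) p ζ ρ k₀ κ₁ cc hζp hp hlam hτζ hgeom hk1 hd h₂⟩
  have hS := tauLoc_locSub w B τ hτB n hn hwn
  obtain ⟨t, ht, e⟩ := (locOneR_iff hn).1 hloc
  have hτlam : τ (algebraMap R F (ζ - 1)) = algebraMap R F (ζ - 1) * algebraMap R F k₀ := by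
    rw [map_sub, map_sub, map_one, map_one, hτζ, ← map_one (algebraMap R F), ← map_sub,
      ← map_sub, ← map_mul, hgeom]
  obtain ⟨hne, s, hs, hτ⟩ := tau_one_add hS (ζ - 1) ρ k₀ κ₂ cc p hp hlam hτlam hkp ht
  rw [map_pow] at e
  rw [← e] at hτ hne
  refine (locOneR_iff hn).2 ⟨s, hs, ?_⟩
  have hu' : u ^ cc ≠ 0 := pow_ne_zero _ hu
  have hd' : d ^ cc ≠ 0 := pow_ne_zero _ hd
  have key : τ u * (u ^ cc)⁻¹ * (τ d * (d ^ cc)⁻¹) ^ p = τ (u * d ^ p) * ((u * d ^ p) ^ cc)⁻¹ := by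
    rw [map_mul, map_pow, mul_pow, mul_pow, inv_pow, mul_inv, ← pow_mul, ← pow_mul,
      mul_comm p cc]
    ring
  rw [key, hτ, map_mul, map_pow]
  field_simp

end LF

section Div

variable {E F : Type*} [Field E] [Field F] [Algebra E F]

theorem divisibleDiv_pow495 (m : ℕ) (f : F) (hf : DivisibleDiv E m f) (c : ℕ) :
    DivisibleDiv E m (f ^ c) := by
  intro V hV hE
  obtain ⟨h, u, hh, hu, hu', rfl⟩ := hf V hV hE
  refine ⟨h ^ c, u ^ c, pow_ne_zero _ hh, V.pow_mem hu c, ?_, ?_⟩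
  · rw [← inv_pow]
    exact V.pow_mem hu' c
  · rw [mul_pow, ← pow_mul, ← pow_mul, mul_comm m c]

end Div

section Asm

variable {R E F : Type} [CommRing R] [IsDomain R] [IsDiscreteValuationRing R]
  [HenselianLocalRing R] [IsAlgClosed (IsLocalRing.ResidueField R)]
  [Field E] [CharZero E] [Algebra R E] [IsFractionRing R E]
  [Field F] [Algebra E F] [Algebra R F] [IsScalarTower R E F]

/-- `ζ - 1` lies in the maximal ideal. -/
theorem zeta_sub_one_mem (p : ℕ) (hp : p.Prime) (hpR : (p : R) ∈ IsLocalRing.maximalIdeal R)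
    (ζ : R) (hζ : ζ ^ p = 1) : ζ - 1 ∈ IsLocalRing.maximalIdeal R := by
  haveI : Fact p.Prime := ⟨hp⟩
  have h0 : ((p : ℕ) : IsLocalRing.ResidueField R) = 0 := by
    have := (IsLocalRing.residue_eq_zero_iff (p : R)).2 hpR
    rwa [map_natCast] at this
  haveI : CharP (IsLocalRing.ResidueField R) p := (CharP.charP_iff_prime_eq_zero hp).2 h0
  rw [← IsLocalRing.residue_eq_zero_iff]
  have h1 : (IsLocalRing.residue R (ζ - 1)) ^ p = 0 := by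
    rw [map_sub, map_one, sub_pow_char, one_pow, ← map_pow, hζ, map_one, sub_self]
  exact pow_eq_zero_iff (hp.ne_zero) |>.1 h1

/-- the arithmetic of the cyclotomic exponent modulo `w`. -/
theorem exists_cyclo_data (w : R) (hw : Irreducible w) (p : ℕ) (hp : p.Prime)
    (hpR : (p : R) ∈ IsLocalRing.maximalIdeal R) (ζ : R) (hζ : ζ ^ p = 1) (c : ℕ) :
    ∃ ρ k₀ κ₁ κ₂ : R, ζ - 1 = w * ρ ∧ ζ ^ c - 1 = (ζ - 1) * k₀ ∧
      k₀ = (c : R) + w * κ₁ ∧ k₀ ^ p = (c : R) + w * κ₂ := by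
  have hmax : IsLocalRing.maximalIdeal R = Ideal.span {w} := hw.maximalIdeal_eq
  have hmem : ∀ r : R, r ∈ IsLocalRing.maximalIdeal R ↔ ∃ s, r = w * s := by
    intro r
    rw [hmax, Ideal.mem_span_singleton']
    constructor
    · rintro ⟨a, ha⟩
      exact ⟨a, by rw [← ha, mul_comm]⟩
    · rintro ⟨s, hs⟩
      exact ⟨s, by rw [hs, mul_comm]⟩
  obtain ⟨ρ, hρ⟩ := (hmem _).1 (zeta_sub_one_mem p hp hpR ζ hζ)
  set k₀ : R := ∑ i ∈ Finset.range c, ζ ^ i with hk₀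
  have hgeom : ζ ^ c - 1 = (ζ - 1) * k₀ := (mul_geom_sum ζ c).symm
  -- `k₀ - c ∈ 𝔪`
  have h1 : k₀ - (c : R) ∈ IsLocalRing.maximalIdeal R := by
    have : k₀ - (c : R) = ∑ i ∈ Finset.range c, (ζ ^ i - 1) := by
      rw [Finset.sum_sub_distrib, Finset.sum_const, Finset.card_range, nsmul_eq_mul, mul_one]
    rw [this]
    refine Ideal.sum_mem _ fun i _ => ?_
    have hi : ζ ^ i - 1 = (ζ - 1) * ∑ j ∈ Finset.range i, ζ ^ j := (mul_geom_sum ζ i).symm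
    rw [hi]
    exact Ideal.mul_mem_right _ _ (zeta_sub_one_mem p hp hpR ζ hζ)
  obtain ⟨κ₁, hκ₁⟩ := (hmem _).1 h1
  -- `k₀^p - c ∈ 𝔪`
  have h2 : k₀ ^ p - (c : R) ∈ IsLocalRing.maximalIdeal R := by
    have ha : k₀ ^ p - (c : R) ^ p ∈ IsLocalRing.maximalIdeal R := by
      obtain ⟨q, hq⟩ := sub_dvd_pow_sub_pow k₀ (c : R) p
      rw [hq]
      exact Ideal.mul_mem_right _ _ h1
    have hb : (c : R) ^ p - (c : R) ∈ IsLocalRing.maximalIdeal R := by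
      haveI : Fact p.Prime := ⟨hp⟩
      have hz : ((c : ZMod p)) ^ p - (c : ZMod p) = 0 := by rw [ZMod.pow_card, sub_self]
      have hz' : (((c : ℤ) ^ p - (c : ℤ) : ℤ) : ZMod p) = 0 := by
        push_cast
        exact hz
      obtain ⟨m, hm⟩ := (ZMod.intCast_zmod_eq_zero_iff_dvd _ p).1 hz'
      have : (c : R) ^ p - (c : R) = (p : R) * (m : R) := by
        have := congrArg (Int.cast : ℤ → R) hm
        push_cast at this
        exact this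
      rw [this]
      exact Ideal.mul_mem_right _ _ hpR
    have : k₀ ^ p - (c : R) = (k₀ ^ p - (c : R) ^ p) + ((c : R) ^ p - (c : R)) := by ring
    rw [this]
    exact Ideal.add_mem _ ha hb
  obtain ⟨κ₂, hκ₂⟩ := (hmem _).1 h2
  exact ⟨ρ, k₀, κ₁, κ₂, hρ, hgeom, by linear_combination hκ₁, by linear_combination hκ₂⟩

/-- **ALG-p from the three leaves.** -/
theorem algP_of_leaves (hS : WPSmoothLeaf) (hN : WPNodeLeaf) (hG : GluePLeaf) :
    AlgPStatement := by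
  intro R E F _ _ _ _ _ _ _ _ _ _ _ _ _ w hw p hp hp2 hpR ζ hζ x hx hfin hconst Bf Bi hBf hBi
    cf ci τ τE τR hτE hτR hτf hτi c hc u hu hdiv hdf hdi
  have hCf : ChartCtx E w x Bf := ⟨hw, hx, hfin, hconst, hBf⟩
  have hCi : ChartCtx E w x⁻¹ Bi := H34.chartCtx_inv w hw x hx hfin hconst Bi hBi
  have hIf : Incomparable cf := ⟨cf.not_le₁₂, cf.not_le₂₁⟩
  have hIi : Incomparable ci := ⟨ci.not_le₁₂, ci.not_le₂₁⟩
  have hζp : ζ ^ p = 1 := hζ.pow_eq_one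
  obtain ⟨ρ, k₀, κ₁, κ₂, hlam, hgeom, hk1, hkp⟩ := exists_cyclo_data w hw p hp hpR ζ hζp c
  have hτζ : τ (algebraMap R F ζ) = algebraMap R F (ζ ^ c) := by
    rw [IsScalarTower.algebraMap_apply R E F, hτE, hτR, hc,
      ← IsScalarTower.algebraMap_apply R E F]
  have hτu : τ u ≠ 0 := (map_ne_zero τ).2 hu
  have hv : τ u * (u ^ c)⁻¹ ≠ 0 := mul_ne_zero hτu (inv_ne_zero (pow_ne_zero _ hu))
  have hdivv : DivisibleDiv E p (τ u * (u ^ c)⁻¹) :=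
    H34.divisibleDiv_mul_inv p _ _ (H34.divisibleDiv_tau τ τE hτE p u hdiv)
      (divisibleDiv_pow495 p u hdiv c)
  have hlf : LocallyFactoredP Bf cf p (ζ - 1) (τ u * (u ^ c)⁻¹) := by
    intro n hn hwn
    have hpure : PureAtP Bf cf p ζ u n := by
      by_cases h1 : cf.p₁ ≤ n ∧ cf.p₂ ≤ n
      · exact hN p hp hp2 hpR ζ hζ w x Bf hCf cf hIf u hu hdiv hdf n hn hwn h1.1 h1.2
      · exact hS p hp hp2 hpR ζ hζ w x Bf hCf cf hIf u hu hdiv hdf n hn hwn h1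
    exact localFactorP_of_pureAtP cf hτf n hn.isPrime hwn p ζ ρ k₀ κ₁ κ₂ c hζp hp.pos hlam hτζ
      hgeom hk1 hkp hu hpure
  have hli : LocallyFactoredP Bi ci p (ζ - 1) (τ u * (u ^ c)⁻¹) := by
    intro n hn hwn
    have hpure : PureAtP Bi ci p ζ u n := by
      by_cases h1 : ci.p₁ ≤ n ∧ ci.p₂ ≤ n
      · exact hN p hp hp2 hpR ζ hζ w x⁻¹ Bi hCi ci hIi u hu hdiv hdi n hn hwn h1.1 h1.2
      · exact hS p hp hp2 hpR ζ hζ w x⁻¹ Bi hCi ci hIi u hu hdiv hdi n hn hwn h1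
    exact localFactorP_of_pureAtP ci hτi n hn.isPrime hwn p ζ ρ k₀ κ₁ κ₂ c hζp hp.pos hlam hτζ
      hgeom hk1 hkp hu hpure
  obtain ⟨y, hy, hyv⟩ := hG p hp hp2 hpR ζ hζ w x Bf Bi hCf hCi cf ci hIf hIi _ hv hdivv hlf hli
  refine ⟨y, hy, ?_⟩
  rw [← hyv, mul_assoc, inv_mul_cancel₀ (pow_ne_zero _ hu), mul_one]

end Asm

end Fermat.Agent.Ribet.H495.AlgP
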