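import Fermat.Agent.Ribet.H495.AlgPSpec

/-!
# W-ALGP: the local calculus (helper495)

* `locSub B n` : the localisation `B_n ⊆ F` as a subalgebra (`n` prime);
* `locOneR_iff` : `LocOneR B n r u ↔ u ∈ 1 + r · B_n`;
* `TauLoc` : what is needed from `τ` on a subalgebra `S` (`τ ≡ id mod w`, `1 + w S ⊆ Sˣ`);
* `tau_one_add` (**key computation**): `τ (1 + Λ^k t) = (1 + Λ^k t)^c · (1 + Λ^k w s)`.
-/

set_option autoImplicit false

namespace Fermat.Agent.Ribet.H495.AlgP

open Fermat.Agent.A2 Fermat.Agent.A2.Alg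

section Loc

variable {R F : Type*} [CommRing R] [Field F] [Algebra R F]

/-- The localisation `B_n ⊆ F`. -/
def locSub (B : Subalgebra R F) (n : Ideal B) (hn : n.IsPrime) : Subalgebra R F where
  carrier := {f | ∃ a b : B, b ∉ n ∧ f * (b : F) = (a : F)}
  mul_mem' := by
    rintro f g ⟨a, b, hb, hab⟩ ⟨a', b', hb', hab'⟩
    refine ⟨a * a', b * b', fun h => ?_, ?_⟩
    · rcases hn.mem_or_mem h with h | h
      · exact hb h
      · exact hb' h
    · push_cast
      rw [← hab, ← hab']
      ring
  add_mem' := by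
    rintro f g ⟨a, b, hb, hab⟩ ⟨a', b', hb', hab'⟩
    refine ⟨a * b' + a' * b, b * b', fun h => ?_, ?_⟩
    · rcases hn.mem_or_mem h with h | h
      · exact hb h
      · exact hb' h
    · push_cast
      rw [← hab, ← hab']
      ring
  algebraMap_mem' r :=
    ⟨algebraMap R B r, 1, fun h => hn.ne_top ((Ideal.eq_top_iff_one n).2 h), by simp⟩

theorem mem_locSub {B : Subalgebra R F} {n : Ideal B} {hn : n.IsPrime} {f : F} :
    f ∈ locSub B n hn ↔ ∃ a b : B, b ∉ n ∧ f * (b : F) = (a : F) := Iff.rfl

theorem coe_ne_zero_of_notMem495 {B : Subalgebra R F} {n : Ideal B} {b : B} (hb : b ∉ n) :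
    (b : F) ≠ 0 := by
  intro h
  apply hb
  have : b = 0 := Subtype.ext h
  rw [this]
  exact n.zero_mem

/-- `LocOneR B n r u ↔ u ∈ 1 + r · B_n`. -/
theorem locOneR_iff {B : Subalgebra R F} {n : Ideal B} (hn : n.IsPrime) {r : R} {u : F} :
    LocOneR B n r u ↔ ∃ t ∈ locSub B n hn, u = 1 + algebraMap R F r * t := by
  constructor
  · rintro ⟨a, b, hb, hab, e⟩
    obtain ⟨c, hc⟩ := Ideal.mem_span_singleton'.1 hab
    have hb0 : (b : F) ≠ 0 := coe_ne_zero_of_notMem495 hb
    have hcF : (c : F) * algebraMap R F r = (a : F) - (b : F) := by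
      have := congrArg (fun z : B => (z : F)) hc
      simpa using this
    refine ⟨(c : F) * (b : F)⁻¹, ⟨c, b, hb, by field_simp⟩, ?_⟩
    have hu : u = (a : F) * (b : F)⁻¹ := by
      field_simp
      exact e
    rw [hu]
    field_simp
    linear_combination -hcF
  · rintro ⟨t, ⟨a, b, hb, hab⟩, rfl⟩
    refine ⟨b + algebraMap R B r * a, b, hb, ?_, ?_⟩
    · rw [add_sub_cancel_left]
      exact Ideal.mul_mem_right _ _ (Ideal.mem_span_singleton_self _)
    · push_cast
      rw [add_mul, one_mul, mul_assoc, hab]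

end Loc

section Tau

variable {R F : Type*} [CommRing R] [Field F] [Algebra R F]

/-- The properties of a subalgebra `S ⊆ F` (a localisation of a chart at a prime containing `w`)
with respect to `τ` used in the computations. -/
structure TauLoc (w : R) (S : Subalgebra R F) (τ : F ≃+* F) : Prop where
  /-- `1 + w S ⊆ Sˣ` -/
  inv_mem : ∀ s ∈ S, (1 + algebraMap R F w * s) ≠ 0 ∧ (1 + algebraMap R F w * s)⁻¹ ∈ S
  /-- `τ ≡ id mod w` on `S` -/
  tau : ∀ s ∈ S, ∃ s' ∈ S, τ s = s + algebraMap R F w * s'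

/-- `τ ≡ id mod w` on the chart passes to the localisation at a prime containing `w`. -/
theorem tauLoc_locSub (w : R) (B : Subalgebra R F) (τ : F ≃+* F)
    (hτB : ∀ b ∈ B, ∃ c ∈ B, τ b - b = algebraMap R F w * c)
    (n : Ideal B) (hn : n.IsPrime) (hwn : algebraMap R B w ∈ n) :
    TauLoc w (locSub B n hn) τ := by
  constructor
  · rintro s ⟨a, b, hb, hab⟩
    have hb0 : (b : F) ≠ 0 := coe_ne_zero_of_notMem495 hb
    have hbn : b + algebraMap R B w * a ∉ n := by
      intro h
      apply hb
      have h2 : b = (b + algebraMap R B w * a) - algebraMap R B w * a := by ring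
      rw [h2]
      exact n.sub_mem h (n.mul_mem_right _ hwn)
    have hne : ((b + algebraMap R B w * a : B) : F) ≠ 0 := coe_ne_zero_of_notMem495 hbn
    have hs : s = (a : F) * (b : F)⁻¹ := by
      field_simp
      exact hab
    have hcast : ((b + algebraMap R B w * a : B) : F) = (b : F) + algebraMap R F w * (a : F) := by
      push_cast
      rfl
    have key : 1 + algebraMap R F w * s = ((b : F) + algebraMap R F w * (a : F)) * (b : F)⁻¹ := by
      rw [hs]
      field_simp
    rw [hcast] at hne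
    refine ⟨?_, ?_⟩
    · rw [key]
      exact mul_ne_zero hne (inv_ne_zero hb0)
    · refine ⟨b, b + algebraMap R B w * a, hbn, ?_⟩
      rw [key, hcast]
      field_simp
  · rintro s ⟨a, b, hb, hab⟩
    obtain ⟨ca, hca, ea⟩ := hτB a a.2
    obtain ⟨cb, hcb, eb⟩ := hτB b b.2
    have hb0 : (b : F) ≠ 0 := coe_ne_zero_of_notMem495 hb
    have hτb : τ (b : F) = (b : F) + algebraMap R F w * cb := by linear_combination eb
    have hτa : τ (a : F) = (a : F) + algebraMap R F w * ca := by linear_combination ea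
    have hb'n : (⟨(b : F) + algebraMap R F w * cb,
        B.add_mem b.2 (B.mul_mem (B.algebraMap_mem w) hcb)⟩ : B) ∉ n := by
      intro h
      apply hb
      have h2 : b = (⟨(b : F) + algebraMap R F w * cb,
          B.add_mem b.2 (B.mul_mem (B.algebraMap_mem w) hcb)⟩ : B) -
          algebraMap R B w * ⟨cb, hcb⟩ := by
        apply Subtype.ext
        push_cast
        ring
      rw [h2]
      exact n.sub_mem h (n.mul_mem_right _ hwn)
    have hτb0 : (b : F) + algebraMap R F w * cb ≠ 0 := by
      have := coe_ne_zero_of_notMem495 (F := F) hb'n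
      simpa using this
    have hs : s = (a : F) * (b : F)⁻¹ := by
      field_simp
      exact hab
    have hτs : τ s = ((a : F) + algebraMap R F w * ca) * ((b : F) + algebraMap R F w * cb)⁻¹ := by
      rw [hs, map_mul, map_inv₀, hτa, hτb]
    refine ⟨(ca * (b : F) - (a : F) * cb) * ((b : F) * ((b : F) + algebraMap R F w * cb))⁻¹,
      ⟨⟨ca, hca⟩ * b - a * ⟨cb, hcb⟩,
        b * ⟨(b : F) + algebraMap R F w * cb,
          B.add_mem b.2 (B.mul_mem (B.algebraMap_mem w) hcb)⟩, ?_, ?_⟩, ?_⟩
    · intro h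
      rcases hn.mem_or_mem h with h | h
      · exact hb h
      · exact hb'n h
    · push_cast
      rw [mul_assoc, inv_mul_cancel₀ (mul_ne_zero hb0 hτb0), mul_one]
    · rw [hτs, hs]
      field_simp
      ring

end Tau

end Fermat.Agent.Ribet.H495.AlgP
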