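import Fermat.Agent.Ribet.H495.AlgPLoc

/-!
# W-ALGP: the key computation (helper495)

`tau_one_add`: if `τ ≡ id mod w` on `S`, `τ Λ = Λ K`, `Λ = w ρ`, `K ^ k ≡ c mod w`, `k ≥ 1`, then
for `t ∈ S`:  `τ (1 + Λ^k t) = (1 + Λ^k t)^c · (1 + Λ^k w s)` with `s ∈ S`.
-/

set_option autoImplicit false

namespace Fermat.Agent.Ribet.H495.AlgP

section Comp

variable {R F : Type*} [CommRing R] [Field F] [Algebra R F]

/-- `(1 + X)^c = 1 + c X + X² q` with `q` in any subalgebra containing `X`. -/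
theorem one_add_pow_expand (S : Subalgebra R F) {X : F} (hX : X ∈ S) (c : ℕ) :
    ∃ q ∈ S, (1 + X) ^ c = 1 + (c : F) * X + X ^ 2 * q := by
  induction c with
  | zero => exact ⟨0, S.zero_mem, by simp⟩
  | succ c ih =>
    obtain ⟨q, hq, e⟩ := ih
    refine ⟨(c : F) + q + X * q, ?_, ?_⟩
    · exact S.add_mem (S.add_mem (natCast_mem S c) hq) (S.mul_mem hX hq)
    · rw [pow_succ, e]
      push_cast
      ring

/-- **Key computation.** -/
theorem tau_one_add {w : R} {S : Subalgebra R F} {τ : F ≃+* F} (hS : TauLoc w S τ)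
    (lam ρ k₀ κ : R) (c k : ℕ) (hk : 0 < k) (hlam : lam = w * ρ)
    (hτlam : τ (algebraMap R F lam) = algebraMap R F lam * algebraMap R F k₀)
    (hk₀ : k₀ ^ k = (c : R) + w * κ) {t : F} (ht : t ∈ S) :
    (1 + algebraMap R F lam ^ k * t) ^ c ≠ 0 ∧
    ∃ s ∈ S, τ (1 + algebraMap R F lam ^ k * t) =
      (1 + algebraMap R F lam ^ k * t) ^ c *
        (1 + algebraMap R F lam ^ k * algebraMap R F w * s) := by
  set Λ : F := algebraMap R F lam with hΛ
  set W : F := algebraMap R F w with hW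
  have hΛW : Λ = W * algebraMap R F ρ := by rw [hΛ, hW, hlam, map_mul]
  obtain ⟨k', rfl⟩ : ∃ k', k = k' + 1 := ⟨k - 1, by omega⟩
  have hΛS : Λ ∈ S := S.algebraMap_mem lam
  have hρS : algebraMap R F ρ ∈ S := S.algebraMap_mem ρ
  have hκS : algebraMap R F κ ∈ S := S.algebraMap_mem κ
  have hWS : W ∈ S := S.algebraMap_mem w
  obtain ⟨t', ht', hτt⟩ := hS.tau t ht
  set X : F := Λ ^ (k' + 1) * t with hX
  have hXS : X ∈ S := S.mul_mem (S.pow_mem hΛS _) ht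
  obtain ⟨q, hq, hexp⟩ := one_add_pow_expand S hXS c
  -- `Λ^(k'+1) = W * (ρ Λ^k')`
  have hΛk : Λ ^ (k' + 1) = W * (algebraMap R F ρ * Λ ^ k') := by
    rw [pow_succ, hΛW]
    ring
  -- `B = 1 + W * b`
  set b : F := algebraMap R F ρ * Λ ^ k' * ((c : F) * t + X * t * q) with hb
  have hbS : b ∈ S :=
    S.mul_mem (S.mul_mem hρS (S.pow_mem hΛS _))
      (S.add_mem (S.mul_mem (natCast_mem S c) ht) (S.mul_mem (S.mul_mem hXS ht) hq))
  have hB : (1 + X) ^ c = 1 + W * b := by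
    rw [hexp, hb, hX, hΛk]
    ring
  obtain ⟨hBne, hBinv⟩ := hS.inv_mem b hbS
  rw [← hB] at hBne hBinv
  refine ⟨hBne, ?_⟩
  -- `K^k = c + W κ`
  have hK : algebraMap R F k₀ ^ (k' + 1) = (c : F) + W * algebraMap R F κ := by
    rw [← map_pow, hk₀, map_add, map_mul, map_natCast]
  -- `A = τ (1 + X)`
  have hA : τ (1 + X) = 1 + (c : F) * X + Λ ^ (k' + 1) * W *
      ((c : F) * t' + algebraMap R F κ * t + W * algebraMap R F κ * t') := by
    rw [hX, map_add, map_one, map_mul, map_pow, hτlam, hτt, mul_pow, hK]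
    ring
  set s₀ : F := ((c : F) * t' + algebraMap R F κ * t + W * algebraMap R F κ * t') -
      algebraMap R F ρ * Λ ^ k' * t ^ 2 * q with hs₀
  have hs₀S : s₀ ∈ S := by
    refine S.sub_mem (S.add_mem (S.add_mem (S.mul_mem (natCast_mem S c) ht')
      (S.mul_mem hκS ht)) (S.mul_mem (S.mul_mem hWS hκS) ht')) ?_
    exact S.mul_mem (S.mul_mem (S.mul_mem hρS (S.pow_mem hΛS _)) (S.pow_mem ht 2)) hq
  have hAB : τ (1 + X) = (1 + X) ^ c + Λ ^ (k' + 1) * W * s₀ := by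
    rw [hA, hexp, hs₀, hX]
    have h2 : (Λ ^ (k' + 1) * t) ^ 2 = Λ ^ (k' + 1) * W * (algebraMap R F ρ * Λ ^ k' * t ^ 2) := by
      rw [mul_pow, sq (Λ ^ (k' + 1))]
      nth_rewrite 2 [hΛk]
      ring
    rw [h2]
    ring
  refine ⟨s₀ * ((1 + X) ^ c)⁻¹, S.mul_mem hs₀S hBinv, ?_⟩
  rw [hAB]
  field_simp

end Comp

end Fermat.Agent.Ribet.H495.AlgP
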