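import Fermat.Agent.Ribet.H495.GluePSpec
import Fermat.Agent.Ribet.H495.AlgPAsm
import Fermat.Agent.A2.Alg.H34.Base
import Fermat.Agent.A2.H729.Bridge
import Fermat.Agent.A2.H729.GaussClosed
import Fermat.Agent.A2.H729.LocalFact

/-!
# W-ALGP, leaf GLUE-p: the bridge `GlueCorePStatement → HConstPLeaf → GluePLeaf` (helper495)

Wild analogue of `A2/H729/Glue.lean`: `V := A2.H729.gaussO` (canonical Gauss ring), and the DEEP
bridge `h ∈ 1 + r w V₁`, `h ∈ 1 + r w V₂  ⟹  h ∈ 1 + r w · gaussO` (`deep_of_locOneR`, reduction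
to `A2.H729.inW_sub_one_of_oneAt` by dividing `h - 1` by `r`).

Reusable local calculus (any chart `B`, any prime `𝔭 ∋ w`, `S = B_𝔭`):
* `exists_mul_lam_pow`   : `p = (ζ - 1)^(p-1) · ε`;
* `one_add_pow_prime495` : `(1 + λ w s)^p = 1 + λ^p w s'`;
* `locOneR_mono`, `locOneR_one`, `locOneR_mul`, `locOneR_inv`, `locOneR_pow_prime`.
-/

set_option autoImplicit false
set_option linter.unusedSectionVars false
set_option linter.style.haveILetI false
set_option linter.unusedVariables false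

namespace Fermat.Agent.Ribet.H495.AlgP

open Fermat.Agent.A2 Fermat.Agent.A2.Alg Fermat.Agent.A2.H729
open Fermat.Agent.S18.H138 (chart baseField)
open Polynomial

section Cyclo

/-- `p = (ζ - 1)^(p-1) · ε`. -/
theorem exists_mul_lam_pow {R : Type*} [CommRing R] [IsDomain R] {p : ℕ} (hp : p.Prime) {ζ : R}
    (hζ : IsPrimitiveRoot ζ p) : ∃ ε : R, (p : R) = (ζ - 1) ^ (p - 1) * ε := by
  obtain ⟨z, -, hz⟩ := hζ.self_sub_one_pow_dvd_order (k := p - 1) (Nat.sub_lt hp.pos one_pos)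
  exact ⟨z, by rw [hz]; ring⟩

theorem zeta_sub_one_ne_zero {R : Type*} [CommRing R] {p : ℕ} (hp : p.Prime) {ζ : R}
    (hζ : IsPrimitiveRoot ζ p) : ζ - 1 ≠ 0 := by
  intro h
  have h1 : ζ = 1 := by linear_combination h
  exact hp.one_lt.ne' (hζ.unique (h1 ▸ IsPrimitiveRoot.one))

end Cyclo

section Calc

variable {R F : Type*} [CommRing R] [Field F] [Algebra R F]

/-- `(1 + λ w s)^p = 1 + λ^p w s'` when `p = λ^(p-1) ε`. -/
theorem one_add_pow_prime495 (S : Subalgebra R F) {p : ℕ} (hp : p.Prime) (lam w ε : R)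
    (hpl : (p : R) = lam ^ (p - 1) * ε) {s : F} (hs : s ∈ S) :
    ∃ s' ∈ S, (1 + algebraMap R F (lam * w) * s) ^ p =
      1 + algebraMap R F (lam ^ p * w) * s' := by
  have hX : algebraMap R F (lam * w) * s ∈ S := S.mul_mem (S.algebraMap_mem _) hs
  obtain ⟨r, hr⟩ := exists_add_pow_prime_eq hp (1 : S) ⟨_, hX⟩
  have hr' : (1 + algebraMap R F (lam * w) * s) ^ p =
      1 + (algebraMap R F (lam * w) * s) ^ p +
        (p : F) * (algebraMap R F (lam * w) * s) * (r : F) := by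
    have := congrArg (fun z : S => (z : F)) hr
    simpa using this
  have hpF : (p : F) = algebraMap R F lam ^ (p - 1) * algebraMap R F ε := by
    rw [← map_pow, ← map_mul, ← hpl, map_natCast]
  have hpp : p = (p - 1) + 1 := (Nat.sub_add_cancel hp.pos).symm
  refine ⟨algebraMap R F w ^ (p - 1) * s ^ p + algebraMap R F ε * s * (r : F), ?_, ?_⟩
  · exact S.add_mem (S.mul_mem (S.pow_mem (S.algebraMap_mem _) _) (S.pow_mem hs _))
      (S.mul_mem (S.mul_mem (S.algebraMap_mem _) hs) r.2)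
  · rw [hr', hpF, map_mul, map_mul, map_pow]
    have e1 : (algebraMap R F lam * algebraMap R F w * s) ^ p =
        algebraMap R F lam ^ p * algebraMap R F w * (algebraMap R F w ^ (p - 1) * s ^ p) := by
      rw [mul_pow, mul_pow]
      nth_rewrite 2 [hpp]
      rw [pow_succ]
      ring
    have e2 : algebraMap R F lam ^ (p - 1) * algebraMap R F ε *
        (algebraMap R F lam * algebraMap R F w * s) * (r : F) =
        algebraMap R F lam ^ p * algebraMap R F w * (algebraMap R F ε * s * (r : F)) := by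
      nth_rewrite 2 [hpp]
      rw [pow_succ]
      ring
    rw [e1, e2]
    ring

theorem locOneR_mono {B : Subalgebra R F} {n 𝔭 : Ideal B} (h𝔭n : 𝔭 ≤ n) {r : R} {u : F}
    (h : LocOneR B n r u) : LocOneR B 𝔭 r u := by
  obtain ⟨a, b, hb, hab, e⟩ := h
  exact ⟨a, b, fun hmem => hb (h𝔭n hmem), hab, e⟩

/-- units `1 + w S` of `S = B_𝔭`. -/
theorem inv_one_add_mem_locSub (w : R) (B : Subalgebra R F) (𝔭 : Ideal B) (h𝔭 : 𝔭.IsPrime)
    (hw𝔭 : algebraMap R B w ∈ 𝔭) {s : F} (hs : s ∈ locSub B 𝔭 h𝔭) :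
    (1 + algebraMap R F w * s) ≠ 0 ∧ (1 + algebraMap R F w * s)⁻¹ ∈ locSub B 𝔭 h𝔭 :=
  (tauLoc_locSub w B (RingEquiv.refl F) (fun b _ => ⟨0, B.zero_mem, by simp⟩) 𝔭 h𝔭 hw𝔭).inv_mem
    s hs

theorem locOneR_mul {B : Subalgebra R F} {𝔭 : Ideal B} (h𝔭 : 𝔭.IsPrime) {r : R} {u v : F}
    (hu : LocOneR B 𝔭 r u) (hv : LocOneR B 𝔭 r v) : LocOneR B 𝔭 r (u * v) := by
  obtain ⟨s, hs, rfl⟩ := (locOneR_iff h𝔭).1 hu
  obtain ⟨t, ht, rfl⟩ := (locOneR_iff h𝔭).1 hv
  refine (locOneR_iff h𝔭).2 ⟨s + t + algebraMap R F r * s * t, ?_, by ring⟩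
  exact Subalgebra.add_mem _ (Subalgebra.add_mem _ hs ht)
    (Subalgebra.mul_mem _ (Subalgebra.mul_mem _ (Subalgebra.algebraMap_mem _ _) hs) ht)

theorem locOneR_inv {w : R} {B : Subalgebra R F} {𝔭 : Ideal B} (h𝔭 : 𝔭.IsPrime)
    (hw𝔭 : algebraMap R B w ∈ 𝔭) {r : R} {u : F}
    (hu : LocOneR B 𝔭 (r * w) u) : u ≠ 0 ∧ LocOneR B 𝔭 (r * w) u⁻¹ := by
  obtain ⟨s, hs, rfl⟩ := (locOneR_iff h𝔭).1 hu
  have hrs : algebraMap R F r * s ∈ locSub B 𝔭 h𝔭 :=
    Subalgebra.mul_mem _ (Subalgebra.algebraMap_mem _ _) hs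
  obtain ⟨hne, hinv⟩ := inv_one_add_mem_locSub w B 𝔭 h𝔭 hw𝔭 hrs
  have e : 1 + algebraMap R F (r * w) * s = 1 + algebraMap R F w * (algebraMap R F r * s) := by
    rw [map_mul]; ring
  rw [e]
  refine ⟨hne, (locOneR_iff h𝔭).2
    ⟨-(s * (1 + algebraMap R F w * (algebraMap R F r * s))⁻¹), ?_, ?_⟩⟩
  · exact Subalgebra.neg_mem _ (Subalgebra.mul_mem _ hs hinv)
  · have hD := mul_inv_cancel₀ hne
    rw [map_mul]
    linear_combination hD

theorem locOneR_pow_prime {B : Subalgebra R F} {𝔭 : Ideal B} (h𝔭 : 𝔭.IsPrime) {p : ℕ}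
    (hp : p.Prime) (lam w ε : R) (hpl : (p : R) = lam ^ (p - 1) * ε) {h : F}
    (hh : LocOneR B 𝔭 (lam * w) h) : LocOneR B 𝔭 (lam ^ p * w) (h ^ p) := by
  obtain ⟨s, hs, rfl⟩ := (locOneR_iff h𝔭).1 hh
  obtain ⟨s', hs', e⟩ := one_add_pow_prime495 (locSub B 𝔭 h𝔭) hp lam w ε hpl hs
  exact (locOneR_iff h𝔭).2 ⟨s', hs', e⟩

/-- from a local factorisation at a point of the component `𝔭`: `v ∈ 1 + λ^p w B_𝔭`. -/
theorem locOneR_of_factor {w : R} {B : Subalgebra R F} {n 𝔭 : Ideal B} (h𝔭 : 𝔭.IsPrime)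
    (hw𝔭 : algebraMap R B w ∈ 𝔭) (h𝔭n : 𝔭 ≤ n) {p : ℕ} (hp : p.Prime) (lam ε : R)
    (hpl : (p : R) = lam ^ (p - 1) * ε) {v h : F}
    (hloc : LocOneR B n (lam ^ p * w) (v * h ^ p)) (hh : LocOneR B 𝔭 (lam * w) h) :
    LocOneR B 𝔭 (lam ^ p * w) v := by
  have h1 : LocOneR B 𝔭 (lam ^ p * w) (v * h ^ p) := locOneR_mono h𝔭n hloc
  have h2 : LocOneR B 𝔭 (lam ^ p * w) (h ^ p) := locOneR_pow_prime h𝔭 hp lam w ε hpl hh
  obtain ⟨hne, h3⟩ := locOneR_inv h𝔭 hw𝔭 h2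
  have := locOneR_mul h𝔭 h1 h3
  rwa [mul_assoc, mul_inv_cancel₀ hne, mul_one] at this

end Calc

section Deep

variable {R : Type*} [CommRing R] [IsDomain R] {F : Type*} [Field F] [Algebra R F]

/-- **Deep bridge**: `h ∈ 1 + r w V₁` and `h ∈ 1 + r w V₂` imply `h ∈ 1 + r w · gaussO`. -/
theorem deep_of_locOneR {w : R} (hw : Prime w) {x : F} (hx : Transcendental R x)
    (c : SSChart w (chart R ({x} : Set F))) (hc : Incomparable c) (r : R)
    (hr : algebraMap R F r ≠ 0) {h : F}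
    (h₁ : LocOneR (chart R ({x} : Set F)) c.p₁ (r * w) h)
    (h₂ : LocOneR (chart R ({x} : Set F)) c.p₂ (r * w) h) :
    ∃ t ∈ gaussO hw x, h = 1 + algebraMap R F (r * w) * t := by
  have key : ∀ 𝔭 : Ideal (chart R ({x} : Set F)),
      algebraMap R (chart R ({x} : Set F)) w ∈ 𝔭 →
      LocOneR (chart R ({x} : Set F)) 𝔭 (r * w) h →
      ∃ a b : chart R ({x} : Set F), b ∉ 𝔭 ∧ a - b ∈ 𝔭 ∧
        (1 + (h - 1) * (algebraMap R F r)⁻¹) * (b : F) = (a : F) := by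
    rintro 𝔭 hw𝔭 ⟨a, b, hb, hab, e⟩
    obtain ⟨d, hd⟩ := Ideal.mem_span_singleton'.1 hab
    refine ⟨b + d * algebraMap R (chart R ({x} : Set F)) w, b, hb, ?_, ?_⟩
    · rw [add_sub_cancel_left]
      exact 𝔭.mul_mem_left _ hw𝔭
    · have hdF : (d : F) * (algebraMap R F r * algebraMap R F w) = (a : F) - (b : F) := by
        have := congrArg (fun z : chart R ({x} : Set F) => (z : F)) hd
        simpa [map_mul] using this
      have hcast : ((b + d * algebraMap R (chart R ({x} : Set F)) w :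
          chart R ({x} : Set F)) : F) = (b : F) + (d : F) * algebraMap R F w := by
        push_cast
        rfl
      rw [hcast]
      have e3 : (h - 1) * (b : F) = (d : F) * (algebraMap R F r * algebraMap R F w) := by
        rw [hdF, ← e]; ring
      field_simp
      linear_combination e3
  obtain ⟨t, ht, e⟩ := inW_sub_one_of_oneAt hw hx c.prime₁ c.prime₂ c.inf_eq hc.1 hc.2
    (key c.p₁ (w_mem_comp₁ c) h₁) (key c.p₂ (w_mem_comp₂ c) h₂)
  refine ⟨t, ht, ?_⟩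
  have e' : (h - 1) * (algebraMap R F r)⁻¹ = algebraMap R F w * t := by
    rw [← e]; ring
  have e'' : h - 1 = algebraMap R F r * (algebraMap R F w * t) := by
    rw [← e']
    field_simp
  rw [map_mul]
  linear_combination e''

/-- `v ∈ 1 + λ^p w V_i` on the component `𝔭 ∋ w` of a locally factored class. -/
theorem locOneR_comp_of_locallyFactoredP {w : R} {B : Subalgebra R F} (c : SSChart w B)
    {p : ℕ} (hp : p.Prime) (lam ε : R) (hpl : (p : R) = lam ^ (p - 1) * ε) {v : F}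
    (hf : LocallyFactoredP B c p lam v) :
    LocOneR B c.p₁ (lam ^ p * w) v ∧ LocOneR B c.p₂ (lam ^ p * w) v := by
  constructor
  · obtain ⟨𝔪, h𝔪, hp𝔪⟩ := Ideal.exists_le_maximal c.p₁ c.prime₁.ne_top
    obtain ⟨h, -, hloc, h1, -⟩ := hf 𝔪 h𝔪 (hp𝔪 (w_mem_comp₁ c))
    exact locOneR_of_factor c.prime₁ (w_mem_comp₁ c) hp𝔪 hp lam ε hpl hloc h1
  · obtain ⟨𝔪, h𝔪, hp𝔪⟩ := Ideal.exists_le_maximal c.p₂ c.prime₂.ne_top
    obtain ⟨h, -, hloc, -, h2⟩ := hf 𝔪 h𝔪 (hp𝔪 (w_mem_comp₂ c))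
    exact locOneR_of_factor c.prime₂ (w_mem_comp₂ c) hp𝔪 hp lam ε hpl hloc h2

/-- Local factorisations on one chart, in the form of `WildChartData.loc`. -/
theorem loc_of_locallyFactoredP {w : R} (hw : Prime w) {x : F} (hx : Transcendental R x)
    (c : SSChart w (chart R ({x} : Set F))) (hc : Incomparable c) {p : ℕ} {lam : R}
    (hlam : algebraMap R F lam ≠ 0) {v : F}
    (hf : LocallyFactoredP (chart R ({x} : Set F)) c p lam v) :
    ∀ 𝔪 : Ideal (chart R ({x} : Set F)), 𝔪.IsMaximal →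
      algebraMap R (chart R ({x} : Set F)) w ∈ 𝔪 →
      ∃ h : F, (∃ t ∈ gaussO hw x, h = 1 + algebraMap R F (lam * w) * t) ∧
        ∃ s a : chart R ({x} : Set F), s ∉ 𝔪 ∧
          v * (s : F) = h ^ p * ((s : F) + algebraMap R F (lam ^ p * w) * (a : F)) := by
  intro 𝔪 h𝔪 hw𝔪
  obtain ⟨h, hh0, ⟨a, b, hb, hab, e⟩, h1, h2⟩ := hf 𝔪 h𝔪 hw𝔪
  obtain ⟨t, ht, htt⟩ := deep_of_locOneR hw hx c hc lam hlam h1 h2
  obtain ⟨d, hd⟩ := Ideal.mem_span_singleton'.1 hab
  have hlt : algebraMap R F lam * t ∈ gaussO hw x :=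
    Subalgebra.mul_mem _ (Subalgebra.algebraMap_mem _ _) ht
  obtain ⟨hne, hinv⟩ := one_add_unit_gaussO hw hx hlt
  have hh' : h = 1 + algebraMap R F w * (algebraMap R F lam * t) := by
    rw [htt, map_mul]; ring
  refine ⟨h⁻¹, ⟨-(t * (1 + algebraMap R F w * (algebraMap R F lam * t))⁻¹),
    Subalgebra.neg_mem _ (Subalgebra.mul_mem _ ht hinv), ?_⟩, b, d, hb, ?_⟩
  · have hD := mul_inv_cancel₀ hne
    rw [hh', map_mul]
    linear_combination hD
  · have hdF : (d : F) * algebraMap R F (lam ^ p * w) = (a : F) - (b : F) := by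
      have := congrArg (fun z : chart R ({x} : Set F) => (z : F)) hd
      simpa using this
    have e1 : (b : F) + algebraMap R F (lam ^ p * w) * (d : F) = (a : F) := by
      rw [mul_comm, hdF]; ring
    rw [e1, ← e, inv_pow]
    field_simp

end Deep

section Bridge

/-- **The bridge.**  GLUE-p from the abstract core and HCONST-p. -/
theorem gluePLeaf_of_core (hC : GlueCorePStatement) (hK : HConstPLeaf) : GluePLeaf := by
  intro R E F _ _ _ _ _ _ _ _ _ _ _ _ _ p hp hp2 hpR ζ hζ w x Bf Bi hBf hBi cf ci hcf hci v hv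
    hdiv hf hi
  have hconst := hK p hp hp2 hpR ζ hζ w x Bf hBf cf hcf v hv
  obtain ⟨ε, hpl⟩ := exists_mul_lam_pow hp hζ
  have hv₁ := (locOneR_comp_of_locallyFactoredP cf hp (ζ - 1) ε hpl hf).1
  have hconst' := hconst hv₁
  obtain rfl := H34.chart_eq x Bf hBf.hB
  obtain rfl := H34.chart_eq x⁻¹ Bi hBi.hB
  haveI : CharZero F := H34.charZero_of_field (E := E)
  have hfd := H34.finiteDimensional_baseField (R := R) x hBf.hfin
  have hinjR : Function.Injective (algebraMap R F) := H34.algebraMap_RF_injective E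
  have hx : Transcendental R x := H34.transcendental_of_field hBf.hx
  have hx0 : x ≠ 0 := Fermat.Agent.S18.H138.ne_zero_of_transcendental hx
  have hxi : Transcendental R x⁻¹ := Fermat.Agent.S18.H138.transcendental_inv hx
  have hw : Prime w := hBf.hw.prime
  have hw0 : algebraMap R F w ≠ 0 := fun h0 => hw.ne_zero (hinjR (by rw [h0, map_zero]))
  have hlam : algebraMap R F (ζ - 1) ≠ 0 := fun h0 =>
    zeta_sub_one_ne_zero hp hζ (hinjR (by rw [h0, map_zero]))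
  have hlamp : algebraMap R F ((ζ - 1) ^ p) ≠ 0 := by
    rw [map_pow]
    exact pow_ne_zero _ hlam
  -- `v ∈ 1 + λ^p w V`
  obtain ⟨hvf₁, hvf₂⟩ := locOneR_comp_of_locallyFactoredP cf hp (ζ - 1) ε hpl hf
  have hu1 := deep_of_locOneR hw hx cf hcf ((ζ - 1) ^ p) hlamp hvf₁ hvf₂
  -- the local factorisations
  have hloc_fin := loc_of_locallyFactoredP hw hx cf hcf hlam hf
  have hloc_inf := loc_of_locallyFactoredP hw hxi ci hci hlam hi
  rw [gaussO_inv hw hx0] at hloc_inf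
  have hqf : ∀ b ∈ chart R ({x} : Set F), ∀ t ∈ gaussO hw x, b = algebraMap R F w * t →
      t ∈ chart R ({x} : Set F) := by
    intro b hb t ht hbt
    obtain ⟨t', ht', hbt'⟩ := qep_fin hw hx b hb ⟨t, ht, hbt⟩
    have : t = t' := mul_left_cancel₀ hw0 (hbt.symm.trans hbt')
    rw [this]
    exact ht'
  have hqi : ∀ b ∈ chart R ({x⁻¹} : Set F), ∀ t ∈ gaussO hw x, b = algebraMap R F w * t →
      t ∈ chart R ({x⁻¹} : Set F) := by
    intro b hb t ht hbt
    obtain ⟨t', ht', hbt'⟩ := qep_inf hw hx b hb ⟨t, ht, hbt⟩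
    have : t = t' := mul_left_cancel₀ hw0 (hbt.symm.trans hbt')
    rw [this]
    exact ht'
  obtain ⟨y, hy⟩ := hC hinjR x hx hfd w hw p hp hp2 hpR ζ hζ (gaussO hw x)
    (fun _ hf => mem_gaussO_of_isIntegral hw hf) (inv_not_mem_gaussO hinjR hw hx)
    (fun _ ht => inv_one_add_mem_gaussO hw hx ht) v hu1
    ⟨chart_fin_le_gaussO hw x, fun _ hf => mem_chart_of_isIntegral_chart hf, hqf, hloc_fin⟩
    ⟨chart_inf_le_gaussO hw hx0, fun _ hf => mem_chart_of_isIntegral_chart hf, hqi, hloc_inf⟩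
    hconst'
  refine ⟨y, ?_, hy.symm⟩
  rintro rfl
  rw [zero_pow hp.ne_zero] at hy
  exact hv hy.symm

end Bridge

end Fermat.Agent.Ribet.H495.AlgP
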