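import Fermat.Agent.Ribet.H495.AlgPSpec
import Fermat.Agent.S18.H138.ChartsConst

/-!
# W-ALGP, leaf GLUE-p: frozen sub-interface (helper495)

`GluePLeaf` (`AlgPSpec.lean`) is split, exactly as A2's GLUE was
(`A2/H348/Final.lean` + `A2/H729/Glue.lean` + `A2/H552/HConst.lean`), into

* `GlueCorePStatement` : the ABSTRACT core, wild port of
  `A2.H348.exists_pow_eq_of_local_factorisation` (owners helper520, helper576):
  a Gauss ring `V` (integrally closed, `w⁻¹ ∉ V`, `1 + w V ⊆ Vˣ`), `u ∈ 1 + λ^p w V`, on both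
  charts `WildChartData` (`B ⊆ V`, `B` integrally closed, `B ∩ w V = w B`, local factorisations
  `u = ε h^p`, `ε ∈ 1 + λ^p w B_𝔪`, `h ∈ 1 + λ w V`), constants do not grow in the residue fields
  of `F[X]/(X^p - u)`  `⟹  u = y ^ p`.
* `HConstPLeaf` : constants do not grow (owner helper129): chart form, `v ∈ 1 + λ^p w V₁`.
* the BRIDGE `gluePLeaf_of_core : GlueCorePStatement → HConstPLeaf → GluePLeaf`
  (PROVED in `GluePBridge.lean`, with `V := A2.H729.gaussO`).

`λ = ζ - 1`, `ζ ∈ R` a primitive `p`-th root of unity, so `w ∣ λ` and `p = λ^(p-1) · unit`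
(`GluePBridge.exists_unit_mul_lam_pow`).
-/

set_option autoImplicit false

namespace Fermat.Agent.Ribet.H495.AlgP

open Fermat.Agent.A2 Fermat.Agent.A2.Alg
open Fermat.Agent.S18.H138 (chart baseField)
open Polynomial

/-- The data attached to one chart `B` of the model for the wild Kummer problem `Y ^ p = u`
(wild analogue of `A2.H348.ChartData`). -/
structure WildChartData {R F : Type*} [CommRing R] [Field F] [Algebra R F]
    (w : R) (p : ℕ) (lam : R) (u : F) (B V : Subalgebra R F) : Prop where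
  le_V : B ≤ V
  closed : ∀ f : F, IsIntegral B f → f ∈ B
  /-- reducedness of the special fibre: `B ∩ w V = w B`. -/
  qep : ∀ b ∈ B, ∀ t ∈ V, b = algebraMap R F w * t → t ∈ B
  /-- local factorisation `u = ε h ^ p` at every closed point of the special fibre,
  `ε ∈ 1 + λ^p w B_𝔪`, `h ∈ 1 + λ w V`. -/
  loc : ∀ 𝔪 : Ideal B, 𝔪.IsMaximal → algebraMap R B w ∈ 𝔪 →
    ∃ h : F, (∃ t ∈ V, h = 1 + algebraMap R F (lam * w) * t) ∧
      ∃ s a : B, s ∉ 𝔪 ∧
        u * (s : F) = h ^ p * ((s : F) + algebraMap R F (lam ^ p * w) * (a : F))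

/-- **GLUE-p, abstract core** (wild port of `A2.H348.exists_pow_eq_of_local_factorisation`). -/
def GlueCorePStatement : Prop :=
  ∀ {R F : Type} [CommRing R] [IsDomain R] [IsDiscreteValuationRing R] [HenselianLocalRing R]
    [IsAlgClosed (IsLocalRing.ResidueField R)] [Field F] [Algebra R F] [CharZero F]
    (_ : Function.Injective (algebraMap R F))
    (x : F) (_ : Transcendental R x) (_ : FiniteDimensional (baseField R x) F)
    (w : R) (_ : Prime w) (p : ℕ) (_ : p.Prime) (_ : p ≠ 2)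
    (_ : (p : R) ∈ IsLocalRing.maximalIdeal R)
    (ζ : R) (_ : IsPrimitiveRoot ζ p)
    (V : Subalgebra R F)
    (_ : ∀ f : F, IsIntegral V f → f ∈ V)
    (_ : (algebraMap R F w)⁻¹ ∉ V)
    (_ : ∀ t ∈ V, (1 + algebraMap R F w * t)⁻¹ ∈ V)
    (u : F) (_ : ∃ t ∈ V, u = 1 + algebraMap R F ((ζ - 1) ^ p * w) * t)
    (_ : WildChartData w p (ζ - 1) u (chart R ({x} : Set F)) V)
    (_ : WildChartData w p (ζ - 1) u (chart R ({x⁻¹} : Set F)) V)
    (_ : ∀ 𝔫 : Ideal (AdjoinRoot (X ^ p - C u)), 𝔫.IsMaximal →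
      ∀ y : AdjoinRoot (X ^ p - C u) ⧸ 𝔫, IsIntegral R y →
        y ∈ Set.range (algebraMap R (AdjoinRoot (X ^ p - C u) ⧸ 𝔫))),
    ∃ y : F, y ^ p = u

/-- **HCONST-p**: for `v ∈ 1 + λ^p w V₁` (`V₁ = B_{p₁}`, a discrete valuation ring with
uniformiser `w`) the constants do not grow in the residue fields of the Kummer algebra
`F[X]/(X ^ p - v)` (the cover is unramified over `V₁`: `Z = (z - 1)/λ` satisfies an
Artin–Schreier type equation, separable modulo `w`; `R` henselian with algebraically closed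
residue field). -/
def HConstPLeaf : Prop :=
  ∀ {R E F : Type} [CommRing R] [IsDomain R] [IsDiscreteValuationRing R]
    [HenselianLocalRing R] [IsAlgClosed (IsLocalRing.ResidueField R)]
    [Field E] [CharZero E] [Algebra R E] [IsFractionRing R E]
    [Field F] [Algebra E F] [Algebra R F] [IsScalarTower R E F]
    (p : ℕ) (_ : p.Prime) (_ : p ≠ 2) (_ : (p : R) ∈ IsLocalRing.maximalIdeal R)
    (ζ : R) (_ : IsPrimitiveRoot ζ p)
    (w : R) (x : F) (B : Subalgebra R F) (_ : ChartCtx E w x B)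
    (c : SSChart w B) (_ : Incomparable c)
    (v : F) (_ : v ≠ 0) (_ : LocOneR B c.p₁ ((ζ - 1) ^ p * w) v),
    ∀ 𝔫 : Ideal (AdjoinRoot (X ^ p - C v)), 𝔫.IsMaximal →
      ∀ y : AdjoinRoot (X ^ p - C v) ⧸ 𝔫, IsIntegral R y →
        y ∈ Set.range (algebraMap R (AdjoinRoot (X ^ p - C v) ⧸ 𝔫))

end Fermat.Agent.Ribet.H495.AlgP
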