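import Fermat.Agent.Ribet.H495.WPNodeAbs
import Fermat.Agent.Ribet.H495.GluePBridge
import Fermat.Agent.A2.Alg.H729.CompVal
import Fermat.Agent.A2.Alg.H132.ChartFacts

/-!
# W-ALGP, leaf WPN: `wpNodeLeaf : WPNodeLeaf`, VERBATIM (helper495)

* `exists_root_of_unity_mul495` (**rigidity of `p`-th roots**, Mathlib only): in a valuation ring
  `V ∋ ζ`, `d ^ p ∈ 1 + λ^p V  ⟹  ζ^j d ∈ 1 + λ V` for some `j`
  (`∏_j (1 - ζ^j d)/λ = (1 - d^p)/λ^p ∈ V`, so one factor lies in `V`).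
* `rigid_comp495` : the same on a component of a chart (`V = B_𝔭 = A2.Alg.H729.compVal`).
* `pureAtP_of_locOneR` : `DeepOne u`, `u d^p ∈ 1 + λ^p B_n` and `u d^p ∈ 1 + λ^p V_i` (both `i`)
  `⟹ PureAtP u n` (FOR WPS TOO: the smooth-point leaf only has to produce such a `d`).
* `wpNodeLeaf` : `exists_wildPureAt_node` (`WPNodeAbs.lean`) + rigidity.
-/

set_option autoImplicit false
set_option linter.unusedSectionVars false
set_option linter.style.haveILetI false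
set_option linter.unusedVariables false

namespace Fermat.Agent.Ribet.H495.AlgP

open Fermat.Agent.A2 Fermat.Agent.A2.Alg
open Polynomial

section Rigid

theorem one_lt_prod_range495 {Γ : Type*} [LinearOrderedCommGroupWithZero Γ] (f : ℕ → Γ) (n : ℕ)
    (h : ∀ i, 1 < f i) :
    1 ≤ ∏ i ∈ Finset.range n, f i ∧ (0 < n → 1 < ∏ i ∈ Finset.range n, f i) := by
  induction n with
  | zero => simp
  | succ n ih =>
    have h1 : 1 < (∏ i ∈ Finset.range n, f i) * f n := by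
      calc (1 : Γ) = 1 * 1 := (one_mul 1).symm
        _ ≤ (∏ i ∈ Finset.range n, f i) * 1 := by
            rw [one_mul, mul_one]
            exact ih.1
        _ < (∏ i ∈ Finset.range n, f i) * f n := by
            have hpos : 0 < ∏ i ∈ Finset.range n, f i := lt_of_lt_of_le zero_lt_one ih.1
            exact mul_lt_mul_of_pos_left (h n) hpos
    rw [Finset.prod_range_succ]
    exact ⟨h1.le, fun _ => h1⟩

/-- **Rigidity of `p`-th roots** in a valuation ring. -/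
theorem exists_root_of_unity_mul495 {F : Type*} [Field F] (V : ValuationSubring F) {p : ℕ}
    (hp : p.Prime) {ζ : F} (hζ : IsPrimitiveRoot ζ p)
    {d t : F} (ht : t ∈ V) (hd : d ^ p = 1 + (ζ - 1) ^ p * t) :
    ∃ j : ℕ, ∃ s ∈ V, ζ ^ j * d = 1 + (ζ - 1) * s := by
  have hlam : ζ - 1 ≠ 0 := by
    intro h
    have h1 : ζ = 1 := by linear_combination h
    exact hp.one_lt.ne' (hζ.unique (h1 ▸ IsPrimitiveRoot.one))
  by_contra hcon
  simp only [not_exists, not_and] at hcon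
  have hs : ∀ j : ℕ, (1 - ζ ^ j * d) / (ζ - 1) ∉ V := by
    intro j hmem
    apply hcon j (-((1 - ζ ^ j * d) / (ζ - 1))) (V.neg_mem _ hmem)
    field_simp
    ring
  have hv : ∀ j : ℕ, 1 < V.valuation ((1 - ζ ^ j * d) / (ζ - 1)) := by
    intro j
    rw [← not_le, ValuationSubring.valuation_le_one_iff]
    exact hs j
  have hprod := (one_lt_prod_range495 (fun j => V.valuation ((1 - ζ ^ j * d) / (ζ - 1))) p hv).2
    hp.pos
  rw [← map_prod] at hprod
  have hid : ∏ j ∈ Finset.range p, (1 - ζ ^ j * d) / (ζ - 1) = -t := by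
    rw [Finset.prod_div_distrib, Finset.prod_const, Finset.card_range]
    have h1 := X_pow_sub_C_eq_prod hζ hp.pos (rfl : d ^ p = d ^ p)
    have h2 := congrArg (Polynomial.eval 1) h1
    simp only [eval_sub, eval_pow, eval_X, one_pow, eval_C, eval_prod] at h2
    rw [← h2, hd]
    field_simp
    ring
  rw [hid] at hprod
  exact absurd ((ValuationSubring.valuation_le_one_iff V _).2 (V.neg_mem _ ht)) (not_le.2 hprod)

variable {R F : Type*} [CommRing R] [Field F] [Algebra R F]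

/-- Rigidity on a component of a chart. -/
theorem rigid_comp495 (w : R) (B : Subalgebra R F) [IsNoetherianRing B] [IsFractionRing B F]
    (𝔭 𝔮 : Ideal B) (h𝔭 : 𝔭.IsPrime) (hpq : 𝔭 ⊓ 𝔮 = Ideal.span {algebraMap R B w})
    (hqp : ¬ 𝔮 ≤ 𝔭) (hw0 : algebraMap R F w ≠ 0)
    (hinj : Function.Injective (algebraMap R F))
    {p : ℕ} (hp : p.Prime) {ζ : R} (hζ : IsPrimitiveRoot ζ p)
    {d : F} (hd : LocOneR B 𝔭 ((ζ - 1) ^ p) (d ^ p)) :
    ∃ j : ℕ, LocOneR B 𝔭 (ζ - 1) (algebraMap R F (ζ ^ j) * d) := by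
  obtain ⟨t, ht, e⟩ := (locOneR_iff h𝔭).1 hd
  have ht' : t ∈ H729.compVal w B 𝔭 𝔮 h𝔭 hpq hqp hw0 := ht
  have hζF : IsPrimitiveRoot (algebraMap R F ζ) p := hζ.map_of_injective hinj
  have e' : d ^ p = 1 + (algebraMap R F ζ - 1) ^ p * t := by
    rw [e, map_pow, map_sub, map_one]
  obtain ⟨j, s, hs, hjs⟩ := exists_root_of_unity_mul495 _ hp hζF ht' e'
  refine ⟨j, (locOneR_iff h𝔭).2 ⟨s, hs, ?_⟩⟩
  rw [map_pow, hjs, map_sub, map_one]

end Rigid

section Leaf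

variable {R E F : Type} [CommRing R] [IsDomain R] [IsDiscreteValuationRing R]
  [HenselianLocalRing R] [IsAlgClosed (IsLocalRing.ResidueField R)]
  [Field E] [CharZero E] [Algebra R E] [IsFractionRing R E]
  [Field F] [Algebra E F] [Algebra R F] [IsScalarTower R E F]

/-- **Rigidity on a component**: if `u ∈ 1 + λ^p w V` and `u d^p ∈ 1 + λ^p V` (`V = B_𝔭`, `𝔭` a
component of the special fibre), then `ζ^j d ∈ 1 + λ V` for some `j`. -/
theorem comp_of_locOneR (p : ℕ) (hp : p.Prime) (hpR : (p : R) ∈ IsLocalRing.maximalIdeal R)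
    (ζ : R) (hζ : IsPrimitiveRoot ζ p)
    (w : R) (x : F) (B : Subalgebra R F) (hC : ChartCtx E w x B)
    (𝔭 𝔮 : Ideal B) (h𝔭 : 𝔭.IsPrime) (hpq : 𝔭 ⊓ 𝔮 = Ideal.span {algebraMap R B w})
    (hqp : ¬ 𝔮 ≤ 𝔭)
    {u d : F} (hu : LocOneR B 𝔭 ((ζ - 1) ^ p * w) u)
    (hud : LocOneR B 𝔭 ((ζ - 1) ^ p) (u * d ^ p)) :
    ∃ j : ℕ, LocOneR B 𝔭 (ζ - 1) (algebraMap R F (ζ ^ j) * d) := by
  obtain ⟨hnoeth, hic, hfr⟩ := H34.chart_instances' w x B hC
  haveI := hnoeth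
  haveI := hfr
  have hinj : Function.Injective (algebraMap R F) := H34.algebraMap_RF_injective E
  have hw0 : algebraMap R F w ≠ 0 := fun h0 =>
    hC.hw.ne_zero (hinj (by rw [h0, map_zero]))
  have hw𝔭 : algebraMap R B w ∈ 𝔭 := by
    have : algebraMap R B w ∈ 𝔭 ⊓ 𝔮 := by
      rw [hpq]; exact Ideal.mem_span_singleton_self _
    exact this.1
  obtain ⟨ρ, -, -, -, hρ, -, -, -⟩ :=
    exists_cyclo_data w hC.hw p hp hpR ζ hζ.pow_eq_one 0
  have hpp : p = (p - 1) + 1 := (Nat.sub_add_cancel hp.pos).symm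
  have key : (ζ - 1) ^ p = ((ζ - 1) ^ (p - 1) * ρ) * w := by
    nth_rewrite 1 [hpp]
    rw [pow_succ]
    nth_rewrite 2 [hρ]
    ring
  -- `u ∈ 1 + λ^p V`
  have hu' : LocOneR B 𝔭 (((ζ - 1) ^ (p - 1) * ρ) * w) u := by
    obtain ⟨a, b, hb, hab, e⟩ := hu
    refine ⟨a, b, hb, ?_, e⟩
    obtain ⟨c, hc⟩ := Ideal.mem_span_singleton'.1 hab
    rw [← key, ← hc, map_mul]
    exact Ideal.mul_mem_left _ _ (Ideal.mul_mem_right _ _ (Ideal.mem_span_singleton_self _))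
  rw [key] at hud
  obtain ⟨hune, huinv⟩ := locOneR_inv h𝔭 hw𝔭 hu'
  have h3 := locOneR_mul h𝔭 hud huinv
  have h4 : u * d ^ p * u⁻¹ = d ^ p := by
    field_simp
  rw [h4, ← key] at h3
  exact rigid_comp495 w B 𝔭 𝔮 h𝔭 hpq hqp hw0 hinj hp hζ h3

/-- **`PureAtP` from the local datum** (shared by WPN and WPS): `DeepOne u`,
`u d^p ∈ 1 + λ^p B_n` and `u d^p ∈ 1 + λ^p V_i` on both components. -/
theorem pureAtP_of_locOneR (p : ℕ) (hp : p.Prime)
    (hpR : (p : R) ∈ IsLocalRing.maximalIdeal R) (ζ : R) (hζ : IsPrimitiveRoot ζ p)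
    (w : R) (x : F) (B : Subalgebra R F) (hC : ChartCtx E w x B)
    (c : SSChart w B) {u d : F} (hd0 : d ≠ 0) (hdeep : DeepOne B c p (ζ - 1) u)
    (n : Ideal B) (hloc : LocOneR B n ((ζ - 1) ^ p) (u * d ^ p))
    (hloc₁ : LocOneR B c.p₁ ((ζ - 1) ^ p) (u * d ^ p))
    (hloc₂ : LocOneR B c.p₂ ((ζ - 1) ^ p) (u * d ^ p)) : PureAtP B c p ζ u n := by
  refine ⟨d, hd0, hloc, ?_, ?_⟩
  · exact comp_of_locOneR p hp hpR ζ hζ w x B hC c.p₁ c.p₂ c.prime₁ c.inf_eq c.not_le₂₁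
      hdeep.1 hloc₁
  · exact comp_of_locOneR p hp hpR ζ hζ w x B hC c.p₂ c.p₁ c.prime₂
      (by rw [inf_comm]; exact c.inf_eq) c.not_le₁₂ hdeep.2 hloc₂

/-- `PureAtP` from the local datum at a crossing point (`n` on BOTH components). -/
theorem pureAtP_of_locOneR_node (p : ℕ) (hp : p.Prime)
    (hpR : (p : R) ∈ IsLocalRing.maximalIdeal R) (ζ : R) (hζ : IsPrimitiveRoot ζ p)
    (w : R) (x : F) (B : Subalgebra R F) (hC : ChartCtx E w x B)
    (c : SSChart w B) {u d : F} (hd0 : d ≠ 0) (hdeep : DeepOne B c p (ζ - 1) u)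
    (n : Ideal B) (h₁ : c.p₁ ≤ n) (h₂ : c.p₂ ≤ n)
    (hloc : LocOneR B n ((ζ - 1) ^ p) (u * d ^ p)) : PureAtP B c p ζ u n :=
  pureAtP_of_locOneR p hp hpR ζ hζ w x B hC c hd0 hdeep n hloc (locOneR_mono h₁ hloc)
    (locOneR_mono h₂ hloc)

/-- **Leaf WPN**, explicit form. -/
theorem wild_purity_node (p : ℕ) (hp : p.Prime) (hpR : (p : R) ∈ IsLocalRing.maximalIdeal R)
    (ζ : R) (hζ : IsPrimitiveRoot ζ p)
    (w : R) (x : F) (B : Subalgebra R F) (hC : ChartCtx E w x B)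
    (c : SSChart w B) (u : F) (hdiv : DivisibleDiv E p u) (hdeep : DeepOne B c p (ζ - 1) u)
    (n : Ideal B) (hn : n.IsPrime) (h₁ : c.p₁ ≤ n) (h₂ : c.p₂ ≤ n) : PureAtP B c p ζ u n := by
  obtain ⟨hnoeth, hic, hfr⟩ := H34.chart_instances' w x B hC
  haveI := hnoeth
  haveI := hic
  haveI := hfr
  haveI := c.prime₁
  haveI := c.prime₂
  haveI := hn
  haveI : IsDedekindDomain (B ⧸ c.p₁) := H132.isDedekindDomain_quotient_p₁ w x B hC c
  haveI : IsDedekindDomain (B ⧸ c.p₂) := H132.isDedekindDomain_quotient_p₂ w x B hC c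
  -- the constants
  have hlam0 : ζ - 1 ≠ 0 := zeta_sub_one_ne_zero hp hζ
  obtain ⟨e, η, hlamη⟩ := IsDiscreteValuationRing.eq_unit_mul_pow_irreducible hlam0 hC.hw
  have hlammem := zeta_sub_one_mem p hp hpR ζ hζ.pow_eq_one
  have he : 0 < e := by
    rcases Nat.eq_zero_or_pos e with h0 | h0
    · exfalso
      subst h0
      rw [pow_zero, mul_one] at hlamη
      rw [hlamη] at hlammem
      exact (IsLocalRing.notMem_maximalIdeal.2 η.isUnit) hlammem
    · exact h0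
  obtain ⟨ε, hpl⟩ := exists_mul_lam_pow hp hζ
  have hpυ : (p : R) = (η ^ (p - 1) * ε) * w ^ (e * (p - 1)) := by
    rw [hpl, hlamη, mul_pow, ← pow_mul]
    ring
  have hd : ∀ 𝔭 : Ideal B, LocOneR B 𝔭 ((ζ - 1) ^ p * w) u →
      ∃ a b : B, b ∉ 𝔭 ∧ a - b ∈ Ideal.span
        {algebraMap R B (ζ - 1) ^ p * algebraMap R B w} ∧
        u * algebraMap B F b = algebraMap B F a := by
    rintro 𝔭 ⟨a, b, hb, hab, e⟩
    refine ⟨a, b, hb, ?_, e⟩
    rw [← map_pow, ← map_mul]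
    exact hab
  obtain ⟨d, hd0, a, b, hb, hab, e'⟩ := exists_wildPureAt_node (F := F)
    (w := algebraMap R B w) hp c.p₁ c.p₂ n c.inf_eq c.not_le₁₂ c.not_le₂₁ c.transversal h₁ h₂
    (algebraMap R B (ζ - 1)) (algebraMap R B (η ^ (p - 1) * ε)) (algebraMap R B η) e he
    (η.isUnit.map _) (by rw [hlamη, map_mul, map_pow])
    (by
      have := congrArg (algebraMap R B) hpυ
      simpa using this)
    u (H132.hdiv_of_divisibleDiv w hC.hw B p u hdiv) (hd c.p₁ hdeep.1) (hd c.p₂ hdeep.2)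
  have hloc : LocOneR B n ((ζ - 1) ^ p) (u * d ^ p) := by
    refine ⟨a, b, hb, ?_, e'⟩
    rw [map_pow]
    exact hab
  exact pureAtP_of_locOneR_node p hp hpR ζ hζ w x B hC c hd0 hdeep n h₁ h₂ hloc

end Leaf

/-- **Leaf WPN**, VERBATIM. -/
theorem wpNodeLeaf : WPNodeLeaf := by
  intro R E F _ _ _ _ _ _ _ _ _ _ _ _ _ p hp hp2 hpR ζ hζ w x B hC c hinc u hu hdiv hdeep n hn
    hwn h₁ h₂
  exact wild_purity_node p hp hpR ζ hζ w x B hC c u hdiv hdeep n hn.isPrime h₁ h₂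

end Fermat.Agent.Ribet.H495.AlgP
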