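import Fermat.Agent.Ribet.H524.WildPurity
import Fermat.Agent.Ribet.H132.InstA
import Fermat.Agent.A2.H609.ChartNode

/-!
# W-ALGP, leaf WPN (wild purity at a crossing point): the abstract chart theorem (helper495)

`exists_wildPureAt_node`: `B` a noetherian integrally closed domain with fraction field `F`,
`p₁ ⊓ p₂ = (w)`, `B ⧸ pᵢ` Dedekind, `p₁ ⊔ p₂` radical, `n ⊇ p₁ + p₂` prime, `λ = η w^e`,
`p = υ w^(e(p-1))`.  If `u ∈ Fˣ` is horizontally `p`-divisible and `u ∈ 1 + λ^p w B_{pᵢ}`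
(`i = 1, 2`), then `u d^p ∈ 1 + λ^p B_n` for some `d ∈ Fˣ`.

Proof: node purity `A2.H609.exists_unit_mul_pow_of_node_min` (`u b^p = ε₀ f^p`), then the
successive approximation of `Ribet/H524` (`approx495` = `H524.approx524` with the branch
hypotheses only at the level `p e`, which is what `u ≡ 1 mod λ^p w` gives WITHOUT any Hensel
iteration).
-/

set_option autoImplicit false
set_option linter.unusedSectionVars false
set_option linter.style.haveILetI false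
set_option linter.unusedVariables false

namespace Fermat.Agent.Ribet.H495.AlgP

open Ideal Fermat.Agent.Ribet.H704.I6 Fermat.Agent.Ribet.H524 Fermat.Agent.A2.H849
  Fermat.Agent.A2.H609

section Approx

variable {R : Type*} [CommRing R] [IsLocalRing R]

/-- **Successive approximation** (`H524.approx524` with branch hypotheses at the level `p e`
only). -/
theorem approx495 [IsDomain R] {𝔭₁ 𝔭₂ : Ideal R} {π x y : R} (hN : IsNode 𝔭₁ 𝔭₂ π x y)
    [IsIntegrallyClosed (R ⧸ 𝔭₁)] [IsIntegrallyClosed (R ⧸ 𝔭₂)]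
    {p e : ℕ} (hp : p.Prime) (he : 0 < e) {υ : R} (hpυ : (p : R) = υ * π ^ (e * (p - 1)))
    {ε₀ : R} (hε₀ : IsUnit ε₀)
    (hb₁ : ∃ h r t : R, r ∉ 𝔭₁ ∧ ε₀ * r ^ p - h ^ p = π ^ (p * e) * t)
    (hb₂ : ∃ h r t : R, r ∉ 𝔭₂ ∧ ε₀ * r ^ p - h ^ p = π ^ (p * e) * t) :
    ∀ j : ℕ, j ≤ p * e → ∃ s z : R, IsUnit s ∧ ε₀ = s ^ p * (1 + π ^ j * z) := by
  have := hN.prime₁
  have := hN.prime₂
  have hπ0 := (isNode_pi_ne_zero524 hN)
  have hπ₁ := (isNode_pi_mem_left524 hN)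
  have hπ₂ := (isNode_pi_mem_right524 hN)
  have h𝔭₁𝔪 : 𝔭₁ ≤ IsLocalRing.maximalIdeal R := hN.sup_eq ▸ le_sup_left
  have hπ𝔪 : π ∈ IsLocalRing.maximalIdeal R := h𝔭₁𝔪 hπ₁
  have hp2 : 2 ≤ p := hp.two_le
  have hpm : (p : R) ∈ IsLocalRing.maximalIdeal R := by
    rw [hpυ]
    apply Ideal.mul_mem_left
    obtain ⟨n, hn⟩ : ∃ n, e * (p - 1) = n + 1 := by
      have : 0 < e * (p - 1) := Nat.mul_pos he (by omega)
      exact ⟨e * (p - 1) - 1, by omega⟩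
    rw [hn, pow_succ]
    exact Ideal.mul_mem_left _ _ hπ𝔪
  -- the branch hypotheses at every level `k ≤ p e`
  have lower : ∀ (𝔭 : Ideal R),
      (∃ h r t : R, r ∉ 𝔭 ∧ ε₀ * r ^ p - h ^ p = π ^ (p * e) * t) →
      ∀ k : ℕ, k ≤ p * e → ∃ h r t : R, r ∉ 𝔭 ∧ ε₀ * r ^ p - h ^ p = π ^ k * t := by
    rintro 𝔭 ⟨h, r, t, hr, heq⟩ k hk
    refine ⟨h, r, π ^ (p * e - k) * t, hr, ?_⟩
    rw [heq, ← mul_assoc, ← pow_add]
    congr 2
    omega
  intro j
  induction j with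
  | zero =>
    intro _
    exact ⟨1, ε₀ - 1, isUnit_one, by ring⟩
  | succ j ih =>
    intro hj
    have hj' : j < p * e := hj
    obtain ⟨s, z, hs, hsz⟩ := ih hj'.le
    have hs₁ : s ∉ 𝔭₁ := fun h0 => hN.prime₁.ne_top (Ideal.eq_top_of_isUnit_mem _ h0 hs)
    have hs₂ : s ∉ 𝔭₂ := fun h0 => hN.prime₂.ne_top (Ideal.eq_top_of_isUnit_mem _ h0 hs)
    obtain ⟨h₁, r₁, t₁, hr₁, e₁⟩ := lower 𝔭₁ hb₁ (j + 1) hj
    obtain ⟨h₂, r₂, t₂, hr₂, e₂⟩ := lower 𝔭₂ hb₂ (j + 1) hj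
    have hsr₁ : s * r₁ ∉ 𝔭₁ := fun h0 => (hN.prime₁.mem_or_mem h0).elim hs₁ hr₁
    have hsr₂ : s * r₂ ∉ 𝔭₂ := fun h0 => (hN.prime₂.mem_or_mem h0).elim hs₂ hr₂
    have e₁' : (1 + π ^ j * z) * (s * r₁) ^ p - h₁ ^ p = π ^ (j + 1) * t₁ := by
      rw [← e₁, hsz]; ring
    have e₂' : (1 + π ^ j * z) * (s * r₂) ^ p - h₂ ^ p = π ^ (j + 1) * t₂ := by
      rw [← e₂, hsz]; ring
    obtain ⟨⟨b₁, c₁, hc₁, hbc₁⟩, hnd₁⟩ :=
      branch_step524 𝔭₁ hp hπ₁ hπ0 hN.hx₁ (isNode_x_mul524 hN) hpυ hj' hsr₁ e₁'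
    obtain ⟨⟨b₂, c₂, hc₂, hbc₂⟩, hnd₂⟩ :=
      branch_step524 𝔭₂ hp hπ₂ hπ0 hN.hy₂ (isNode_y_mul524 hN) hpυ hj' hsr₂ e₂'
    by_cases hdiv : p ∣ j
    · obtain ⟨i, rfl⟩ := hdiv
      have hie : i < e := by
        by_contra hcon
        have := Nat.mul_le_mul_left p (not_lt.mp hcon)
        omega
      obtain ⟨w₁, hw₁⟩ := exists_pow_sub_mem524 𝔭₁ hp.ne_zero hc₁ hbc₁
      obtain ⟨w₂, hw₂⟩ := exists_pow_sub_mem524 𝔭₂ hp.ne_zero hc₂ hbc₂
      obtain ⟨w, z', hz'⟩ := glue_pow524 𝔭₁ 𝔭₂ hp hpm hN.inf_eq hN.sup_eq hw₁ hw₂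
      obtain ⟨q, hq⟩ := exists_add_pow_prime_eq hp (1 : R) (π ^ i * w)
      obtain ⟨M, hM⟩ := exists_exponent_gap524 hp2 hie
      have hpow : π ^ (e * (p - 1)) * π ^ i = π ^ (p * i) * π * π ^ M := by
        rw [← pow_add, hM]
        have : i * p = p * i := mul_comm _ _
        rw [this]; ring
      have hv : (1 + π ^ i * w) ^ p
          = 1 + π ^ (p * i) * w ^ p + π ^ (p * i + 1) * (υ * π ^ M * w * q) := by
        rw [hq, hpυ]
        linear_combination (υ * w * q) * hpow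
      have hu1 : IsUnit (1 + π ^ (p * i) * z) := by
        have : IsUnit (s ^ p * (1 + π ^ (p * i) * z)) := hsz ▸ hε₀
        exact isUnit_of_mul_isUnit_right this
      have hvu : IsUnit (1 + π ^ i * w) := by
        rw [← isUnit_pow_iff hp.ne_zero, ← IsLocalRing.notMem_maximalIdeal]
        intro hmem
        have h5 : 1 + π ^ (p * i) * z
            = (1 + π ^ i * w) ^ p + π * (π ^ (p * i) * (z' - υ * π ^ M * w * q)) := by
          rw [hv, hz']; ring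
        have h6 : 1 + π ^ (p * i) * z ∈ IsLocalRing.maximalIdeal R := by
          rw [h5]
          exact Ideal.add_mem _ hmem (Ideal.mul_mem_right _ _ hπ𝔪)
        exact (IsLocalRing.notMem_maximalIdeal.mpr hu1) h6
      obtain ⟨v', hv'⟩ := hvu.exists_right_inv
      have hv'p : (1 + π ^ i * w) ^ p * v' ^ p = 1 := by
        rw [← mul_pow, hv', one_pow]
      refine ⟨s * (1 + π ^ i * w), (z' - υ * π ^ M * w * q) * v' ^ p, hs.mul hvu, ?_⟩
      rw [mul_pow, hsz, hz']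
      have h7 : 1 + π ^ (p * i) * (w ^ p + π * z')
          = (1 + π ^ i * w) ^ p + π ^ (p * i + 1) * (z' - υ * π ^ M * w * q) := by
        rw [hv]; ring
      rw [h7]
      linear_combination (-(s ^ p * π ^ (p * i + 1) * (z' - υ * π ^ M * w * q))) * hv'p
    · have hz : z ∈ 𝔭₁ ⊓ 𝔭₂ := ⟨hnd₁ hdiv, hnd₂ hdiv⟩
      rw [hN.inf_eq, Ideal.mem_span_singleton'] at hz
      obtain ⟨z', hz'⟩ := hz
      refine ⟨s, z', hs, ?_⟩
      rw [hsz, ← hz']; ring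

end Approx

section Chart

variable {B : Type*} [CommRing B] [IsDomain B] [IsNoetherianRing B] [IsIntegrallyClosed B]
variable {F : Type*} [Field F] [Algebra B F] [IsFractionRing B F]

/-- the deep congruence for another denominator. -/
theorem deep_of_eq495 {𝔭 : Ideal B} {u : F} {r a₁ b₁ a b : B}
    (hab₁ : a₁ - b₁ ∈ Ideal.span {r})
    (hu₁ : u * algebraMap B F b₁ = algebraMap B F a₁)
    (hu : u * algebraMap B F b = algebraMap B F a) :
    ∃ T : B, (a - b) * b₁ = r * T := by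
  have hinj : Function.Injective (algebraMap B F) := IsFractionRing.injective B F
  obtain ⟨d, hd⟩ := Ideal.mem_span_singleton'.1 hab₁
  refine ⟨b * d, ?_⟩
  have h1 : a * b₁ = a₁ * b := by
    apply hinj
    rw [map_mul, map_mul, ← hu, ← hu₁]
    ring
  linear_combination h1 - b * hd

/-- **Wild purity at a crossing point of a semistable chart** (abstract form). -/
theorem exists_wildPureAt_node {w : B} {p : ℕ} (hp : p.Prime)
    (p₁ p₂ n : Ideal B) [p₁.IsPrime] [p₂.IsPrime] [n.IsPrime]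
    [IsDedekindDomain (B ⧸ p₁)] [IsDedekindDomain (B ⧸ p₂)]
    (hinf : p₁ ⊓ p₂ = Ideal.span {w}) (h₁₂ : ¬ p₁ ≤ p₂) (h₂₁ : ¬ p₂ ≤ p₁)
    (htr : (p₁ ⊔ p₂).IsRadical) (h₁ : p₁ ≤ n) (h₂ : p₂ ≤ n)
    (lam υ η : B) (e : ℕ) (he : 0 < e) (hη : IsUnit η) (hlamη : lam = η * w ^ e)
    (hpυ : (p : B) = υ * w ^ (e * (p - 1)))
    (u : F)
    (hdiv : ∀ V : ValuationSubring F, IsDiscreteValuationRing V →
      (∀ b : B, algebraMap B F b ∈ V) → (algebraMap B F w)⁻¹ ∈ V →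
      ∃ h u₀ : F, u₀ ∈ V ∧ u₀⁻¹ ∈ V ∧ u = u₀ * h ^ p)
    (hd₁ : ∃ a b : B, b ∉ p₁ ∧ a - b ∈ Ideal.span {lam ^ p * w} ∧
      u * algebraMap B F b = algebraMap B F a)
    (hd₂ : ∃ a b : B, b ∉ p₂ ∧ a - b ∈ Ideal.span {lam ^ p * w} ∧
      u * algebraMap B F b = algebraMap B F a) :
    ∃ d : F, d ≠ 0 ∧ ∃ a b : B, b ∉ n ∧ a - b ∈ Ideal.span {lam ^ p} ∧
      u * d ^ p * algebraMap B F b = algebraMap B F a := by
  have hm : p ≠ 0 := hp.ne_zero
  have hinj : Function.Injective (algebraMap B F) := IsFractionRing.injective B F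
  obtain ⟨a₁, b₁, hb₁, hab₁, hu₁⟩ := hd₁
  obtain ⟨a₂, b₂, hb₂, hab₂, hu₂⟩ := hd₂
  have hw₁ : w ∈ p₁ :=
    (inf_le_left : p₁ ⊓ p₂ ≤ p₁) (hinf ▸ Ideal.mem_span_singleton_self w)
  have hw₂ : w ∈ p₂ :=
    (inf_le_right : p₁ ⊓ p₂ ≤ p₂) (hinf ▸ Ideal.mem_span_singleton_self w)
  have hsp₁ : Ideal.span {lam ^ p * w} ≤ p₁ := by
    rw [Ideal.span_singleton_le_iff_mem]
    exact p₁.mul_mem_left _ hw₁
  have hsp₂ : Ideal.span {lam ^ p * w} ≤ p₂ := by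
    rw [Ideal.span_singleton_le_iff_mem]
    exact p₂.mul_mem_left _ hw₂
  -- common denominator
  obtain ⟨a, b, hbp₁, hbp₂, hub⟩ := exists_common_denominator (p₁ := p₁) (p₂ := p₂)
    ⟨a₁, b₁, hb₁, hu₁⟩ ⟨a₂, b₂, hb₂, hu₂⟩
  have hab₁' : a - 1 * b ∈ p₁ :=
    sub_mul_mem_of_eq hb₁ (by rw [one_mul]; exact hsp₁ hab₁) hu₁ hub
  have hab₂' : a - 1 * b ∈ p₂ :=
    sub_mul_mem_of_eq hb₂ (by rw [one_mul]; exact hsp₂ hab₂) hu₂ hub
  obtain ⟨T₁, hT₁⟩ := deep_of_eq495 (𝔭 := p₁) hab₁ hu₁ hub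
  obtain ⟨T₂, hT₂⟩ := deep_of_eq495 (𝔭 := p₂) hab₂ hu₂ hub
  obtain ⟨hu'F, hu'₁, hu'n₁⟩ := normalised_element (p := p₁) hm isUnit_one hbp₁ hab₁' hub
  obtain ⟨-, hu'₂, hu'n₂⟩ := normalised_element (p := p₂) hm isUnit_one hbp₂ hab₂' hub
  set u' : B := a * b ^ (p - 1) with hu'def
  have hbF : algebraMap B F b ≠ 0 := by
    intro h0
    apply hbp₁
    rw [hinj (by rw [h0, map_zero] : algebraMap B F b = algebraMap B F 0)]
    exact p₁.zero_mem
  have hpp : p = (p - 1) + 1 := (Nat.sub_add_cancel hp.pos).symm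
  -- `u' - b^p = (a - b) b^(p-1)`
  have hu'b : u' - b ^ p = (a - b) * b ^ (p - 1) := by
    rw [hu'def]
    nth_rewrite 2 [hpp]
    rw [pow_succ]
    ring
  -- the local ring
  obtain ⟨hP₁, hP₂, hinf', hsup', hdvr₁, hdvr₂⟩ :=
    Fermat.Agent.A2.H372.node_local_data (locAt F n) hinf h₁₂ h₂₁ htr h₁ h₂
  rw [IsLocalization.AtPrime.map_eq_maximalIdeal n (locAt F n)] at hsup'
  obtain ⟨x, y, -, -, -, -, hN⟩ := Fermat.Agent.Ribet.H132.exists_isNode_locAt (F := F)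
    p₁ p₂ n hinf h₁₂ h₂₁ htr h₁ h₂
  haveI := hP₁
  haveI := hP₂
  haveI := hdvr₁
  haveI := hdvr₂
  set φ := algebraMap B (locAt F n) with hφ
  set U : locAt F n := φ u' with hUdef
  have hUF : (U : F) = u * algebraMap B F b ^ p := hu'F
  have hU₁ : U ∉ p₁.map φ := fun h => hu'n₁ ((algebraMap_mem_map_iff h₁ u').1 h)
  have hU₂ : U ∉ p₂.map φ := fun h => hu'n₂ ((algebraMap_mem_map_iff h₂ u').1 h)
  have hU0 : U ≠ 0 := by
    intro h0
    apply hU₁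
    rw [h0]
    exact Ideal.zero_mem _
  -- (H1)
  have H1 : ∀ 𝔓 ∈ (Ideal.span {U}).minimalPrimes, φ w ∉ 𝔓 →
      ∃ f r : locAt F n, r ∉ 𝔓 ∧ f ^ p = U * r := by
    intro 𝔓 h𝔓 hw𝔓
    refine exists_pow_eq_mul_of_divisible (K := F) hU0 hm h𝔓 ?_
    intro V hV hle hinv
    obtain ⟨h, u₀, hu₀, hu₀', huh⟩ := hdiv V hV
      (fun b => hle (algebraMap B (locAt F n) b)) (hinv _ hw𝔓)
    refine ⟨h * algebraMap B F b, u₀, hu₀, hu₀', ?_⟩
    rw [algebraMap_locAt_apply, hUF, huh]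
    ring
  -- (H2)
  have hu'₁' : u' - 1 * b ^ p ∈ p₁ := hu'₁
  have hu'₂' : u' - 1 * b ^ p ∈ p₂ := hu'₂
  have H2₁ := exists_associated_pow_mk (F := F) (p := p₁) (n := n) (m := p) isUnit_one hu'₁'
  have H2₂ := exists_associated_pow_mk (F := F) (p := p₂) (n := n) (m := p) isUnit_one hu'₂'
  -- purity in the local ring
  obtain ⟨f, ε, hfε⟩ := exists_unit_mul_pow_of_node_min (R := locAt F n) hm
    (p₁.map φ) (p₂.map φ) hinf' hsup' hU₁ hU₂ H1 H2₁ H2₂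
  have hf0 : f ≠ 0 := by
    rintro rfl
    rw [zero_pow hm, mul_zero] at hfε
    exact hU0 hfε
  have hfF : (f : F) ≠ 0 := fun h => hf0 (Subtype.ext h)
  have hf₁ : f ∉ p₁.map φ := by
    intro h
    apply hU₁
    rw [hfε]
    exact Ideal.mul_mem_left _ _ (Ideal.pow_mem_of_mem _ h p (Nat.pos_of_ne_zero hm))
  have hf₂ : f ∉ p₂.map φ := by
    intro h
    apply hU₂
    rw [hfε]
    exact Ideal.mul_mem_left _ _ (Ideal.pow_mem_of_mem _ h p (Nat.pos_of_ne_zero hm))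
  -- `λ^p = η^p π^(p e)` in the local ring
  have hlamφ : φ lam ^ p = φ η ^ p * φ w ^ (p * e) := by
    rw [hlamη, map_mul, map_pow, mul_pow, ← pow_mul, mul_comm e p]
  -- the branch hypotheses for `ε` at the level `p e`
  have hbr : ∀ (𝔭 : Ideal B) [𝔭.IsPrime] (h𝔭n : 𝔭 ≤ n) (b' T : B), b' ∉ 𝔭 →
      f ∉ 𝔭.map φ → ((𝔭.map φ).IsPrime) →
      (a - b) * b' = lam ^ p * w * T →
      ∃ h r t : locAt F n, r ∉ 𝔭.map φ ∧ (ε : locAt F n) * r ^ p - h ^ p = φ w ^ (p * e) * t := by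
    intro 𝔭 _ h𝔭n b' T hb' hf𝔭 hprime hT
    refine ⟨φ (b * b'), f * φ b', φ (η ^ p * w * T * b ^ (p - 1) * b' ^ (p - 1)), ?_, ?_⟩
    · intro h0
      rcases hprime.mem_or_mem h0 with h3 | h3
      · exact hf𝔭 h3
      · exact hb' ((algebraMap_mem_map_iff h𝔭n b').1 h3)
    · have e1 : (ε : locAt F n) * (f * φ b') ^ p = φ (u' * b' ^ p) := by
        rw [map_mul, map_pow, ← hUdef, hfε]
        ring
      have e2 : u' * b' ^ p - (b * b') ^ p =
          η ^ p * w ^ (p * e) * (w * T * b ^ (p - 1) * b' ^ (p - 1)) := by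
        have h3 : u' * b' ^ p - (b * b') ^ p = (u' - b ^ p) * b' ^ p := by ring
        have h4 : b' ^ p = b' * b' ^ (p - 1) := by
          nth_rewrite 1 [hpp]
          rw [pow_succ]
          ring
        have h5 : lam ^ p = η ^ p * w ^ (p * e) := by
          rw [hlamη, mul_pow, ← pow_mul, mul_comm e p]
        rw [h3, hu'b, h4, ← h5]
        linear_combination (b ^ (p - 1) * b' ^ (p - 1)) * hT
      rw [e1, ← map_pow, ← map_sub, e2]
      simp only [map_mul, map_pow]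
      ring
  have hb₁ := hbr p₁ h₁ b₁ T₁ hb₁ hf₁ hP₁ hT₁
  have hb₂ := hbr p₂ h₂ b₂ T₂ hb₂ hf₂ hP₂ hT₂
  -- `p = υ π^(e(p-1))` in the local ring
  have hpυ' : ((p : ℕ) : locAt F n) = φ υ * φ w ^ (e * (p - 1)) := by
    have := congrArg φ hpυ
    simpa using this
  obtain ⟨s, z, hs, hsz⟩ := approx495 hN hp he hpυ' ε.isUnit hb₁ hb₂ (p * e) le_rfl
  have hs0 : s ≠ 0 := hs.ne_zero
  have hsF : (s : F) ≠ 0 := fun h => hs0 (Subtype.ext h)
  obtain ⟨η', hη'⟩ := hη.exists_right_inv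
  -- the element `η'^p z` of `B_n` as a fraction
  obtain ⟨A, S, hS, hAS⟩ := (mem_locAt_iff n ((φ η' ^ p * z : locAt F n) : F)).1
    (φ η' ^ p * z).2
  have hSF : algebraMap B F S ≠ 0 := by
    intro h0
    apply hS
    rw [hinj (by rw [h0, map_zero] : algebraMap B F S = algebraMap B F 0)]
    exact n.zero_mem
  -- the identity in `F`
  have hεF : u * algebraMap B F b ^ p = (s : F) ^ p * (1 + algebraMap B F w ^ (p * e) * (z : F))
      * (f : F) ^ p := by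
    rw [← hUF, hfε, hsz]
    rfl
  have hηF : algebraMap B F η * algebraMap B F η' = 1 := by
    rw [← map_mul, hη', map_one]
  have hlamF : algebraMap B F lam ^ p * algebraMap B F η' ^ p = algebraMap B F w ^ (p * e) := by
    rw [hlamη, map_mul, map_pow, mul_pow, ← pow_mul, mul_comm e p]
    have : (algebraMap B F η * algebraMap B F η') ^ p = 1 := by rw [hηF, one_pow]
    rw [mul_pow] at this
    linear_combination (algebraMap B F w ^ (p * e)) * this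
  have hzF : algebraMap B F η' ^ p * (z : F) = algebraMap B F A * (algebraMap B F S)⁻¹ := by
    rw [← hAS]
    rfl
  refine ⟨algebraMap B F b / ((s : F) * (f : F)),
    div_ne_zero hbF (mul_ne_zero hsF hfF), S + lam ^ p * A, S, hS, ?_, ?_⟩
  · rw [add_sub_cancel_left]
    exact Ideal.mul_mem_right _ _ (Ideal.mem_span_singleton_self _)
  · rw [div_pow, ← mul_div_assoc, hεF, map_add, map_mul, map_pow, ← hlamF]
    have hA : algebraMap B F A = algebraMap B F η' ^ p * (z : F) * algebraMap B F S := by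
      rw [hzF]
      field_simp
    rw [hA]
    field_simp
    ring

end Chart

end Fermat.Agent.Ribet.H495.AlgP
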